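import Fermat.Agent.Eis.Fricke
import Fermat.Agent.JFun.LevelOne
import Fermat.Prelude.Thm_UpperHalfPlane_qExpansion_coeff_nat_mul
import Fermat.Prelude.Thm_UpperHalfPlane_qExpansion_prod

set_option autoImplicit false

open UpperHalfPlane ModularForm Complex Filter Topology Matrix.SpecialLinearGroup
open scoped MatrixGroups Manifold Real
open Fermat.Agent.MFLib

namespace Fermat.Agent.Eis

noncomputable section

open PowerSeries in
/-- `P(t) ↦ P(t^p)` -/
def expP (p : ℕ) (P : PowerSeries ℂ) : PowerSeries ℂ :=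
  mk fun n => if p ∣ n then coeff (n / p) P else 0

lemma coeff_expP (p : ℕ) (P : PowerSeries ℂ) (n : ℕ) :
    (expP p P).coeff n = if p ∣ n then P.coeff (n / p) else 0 := by simp [expP]

lemma coeff_expP_mul {p : ℕ} (hp : 0 < p) (P : PowerSeries ℂ) (n : ℕ) :
    (expP p P).coeff (n * p) = P.coeff n := by
  rw [coeff_expP, if_pos (Dvd.intro_left n rfl), Nat.mul_div_cancel _ hp]

lemma expP_mul {p : ℕ} (hp : 0 < p) (P Q : PowerSeries ℂ) :
    expP p (P * Q) = expP p P * expP p Q := by
  classical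
  ext n
  rw [coeff_expP, PowerSeries.coeff_mul]
  split_ifs with h
  · obtain ⟨m, rfl⟩ := h
    rw [Nat.mul_div_cancel_left _ hp, PowerSeries.coeff_mul]
    have himg : ∀ x ∈ Finset.HasAntidiagonal.antidiagonal (p * m),
        x ∉ (Finset.HasAntidiagonal.antidiagonal m).image (fun y : ℕ × ℕ => (p * y.1, p * y.2)) →
        (expP p P).coeff x.1 * (expP p Q).coeff x.2 = 0 := by
      intro x hx hx'
      rw [coeff_expP, coeff_expP]
      split_ifs with h1 h2
      · exfalso
        apply hx'
        obtain ⟨a, ha⟩ := h1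
        obtain ⟨b, hb⟩ := h2
        rw [Finset.HasAntidiagonal.mem_antidiagonal, ha, hb, ← mul_add] at hx
        refine Finset.mem_image.2 ⟨(a, b), ?_, ?_⟩
        · rw [Finset.HasAntidiagonal.mem_antidiagonal]; exact Nat.eq_of_mul_eq_mul_left hp hx
        · exact Prod.ext ha.symm hb.symm
      · rw [mul_zero]
      · rw [zero_mul]
      · rw [zero_mul]
    have hsub : (Finset.HasAntidiagonal.antidiagonal m).image
        (fun y : ℕ × ℕ => (p * y.1, p * y.2)) ⊆ Finset.HasAntidiagonal.antidiagonal (p * m) := by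
      intro x hx
      obtain ⟨y, hy, rfl⟩ := Finset.mem_image.1 hx
      rw [Finset.HasAntidiagonal.mem_antidiagonal] at hy ⊢
      simp only
      rw [← mul_add, hy]
    rw [← Finset.sum_subset hsub himg, Finset.sum_image]
    · refine Finset.sum_congr rfl fun x _ => ?_
      rw [coeff_expP, coeff_expP, if_pos (Dvd.intro _ rfl), if_pos (Dvd.intro _ rfl),
        Nat.mul_div_cancel_left _ hp, Nat.mul_div_cancel_left _ hp]
    · intro x _ y _ hxy
      have h1 := congrArg Prod.fst hxy
      have h2 := congrArg Prod.snd hxy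
      exact Prod.ext (Nat.eq_of_mul_eq_mul_left hp h1) (Nat.eq_of_mul_eq_mul_left hp h2)
  · have key : ∀ x ∈ Finset.HasAntidiagonal.antidiagonal n,
        (expP p P).coeff x.1 * (expP p Q).coeff x.2 = 0 := by
      intro x hx
      rw [Finset.HasAntidiagonal.mem_antidiagonal] at hx
      rw [coeff_expP, coeff_expP]
      split_ifs with h1 h2
      · exact absurd (hx ▸ dvd_add h1 h2) h
      · rw [mul_zero]
      · rw [zero_mul]
      · rw [zero_mul]
    rw [PowerSeries.coeff_mul, Finset.sum_eq_zero key]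

lemma expP_one {p : ℕ} (hp : 0 < p) : expP p 1 = 1 := by
  ext n
  rw [coeff_expP, PowerSeries.coeff_one, PowerSeries.coeff_one]
  by_cases h0 : n = 0
  · simp [h0]
  · rw [if_neg h0]
    split_ifs with h1 h2
    · exfalso
      apply h0
      rw [Nat.div_eq_zero_iff] at h2
      rcases h2 with h2 | h2
      · omega
      · exact Nat.eq_zero_of_dvd_of_lt h1 h2
    · rfl
    · rfl

lemma expP_pow {p : ℕ} (hp : 0 < p) (P : PowerSeries ℂ) (n : ℕ) :
    expP p (P ^ n) = expP p P ^ n := by
  induction n with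
  | zero => rw [pow_zero, pow_zero, expP_one hp]
  | succ n ih => rw [pow_succ, pow_succ, expP_mul hp, ih]

lemma expP_add (p : ℕ) (P Q : PowerSeries ℂ) : expP p (P + Q) = expP p P + expP p Q := by
  ext n
  rw [map_add, coeff_expP, coeff_expP, coeff_expP]
  split_ifs <;> simp

lemma expP_smul (p : ℕ) (c : ℂ) (P : PowerSeries ℂ) : expP p (c • P) = c • expP p P := by
  ext n
  rw [PowerSeries.coeff_smul, coeff_expP, coeff_expP]
  split_ifs <;> simp

lemma expP_sub (p : ℕ) (P Q : PowerSeries ℂ) : expP p (P - Q) = expP p P - expP p Q := by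
  ext n
  rw [map_sub, coeff_expP, coeff_expP, coeff_expP]
  split_ifs <;> simp

section cong

variable (R : ValuationSubring ℂ)

/-- coefficients in `R` -/
def PI (P : PowerSeries ℂ) : Prop := ∀ n, R.valuation (P.coeff n) ≤ 1

/-- coefficients in the maximal ideal -/
def PM (P : PowerSeries ℂ) : Prop := ∀ n, R.valuation (P.coeff n) < 1

variable {R}

lemma PM.pi {P : PowerSeries ℂ} (h : PM R P) : PI R P := fun n => (h n).le

lemma PI.add {P Q : PowerSeries ℂ} (hP : PI R P) (hQ : PI R Q) : PI R (P + Q) := fun n => by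
  rw [map_add]; exact (R.valuation.map_add _ _).trans (max_le (hP n) (hQ n))

lemma PM.add {P Q : PowerSeries ℂ} (hP : PM R P) (hQ : PM R Q) : PM R (P + Q) := fun n => by
  rw [map_add]; exact (R.valuation.map_add _ _).trans_lt (max_lt (hP n) (hQ n))

lemma PI.neg {P : PowerSeries ℂ} (hP : PI R P) : PI R (-P) := fun n => by
  rw [map_neg, Valuation.map_neg]; exact hP n

lemma PM.neg {P : PowerSeries ℂ} (hP : PM R P) : PM R (-P) := fun n => by
  rw [map_neg, Valuation.map_neg]; exact hP n

lemma PI.sub {P Q : PowerSeries ℂ} (hP : PI R P) (hQ : PI R Q) : PI R (P - Q) := by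
  rw [sub_eq_add_neg]; exact hP.add hQ.neg

lemma PM.sub {P Q : PowerSeries ℂ} (hP : PM R P) (hQ : PM R Q) : PM R (P - Q) := by
  rw [sub_eq_add_neg]; exact hP.add hQ.neg

lemma PI.mul {P Q : PowerSeries ℂ} (hP : PI R P) (hQ : PI R Q) : PI R (P * Q) := fun n => by
  rw [PowerSeries.coeff_mul]
  refine R.valuation.map_sum_le fun x _ => ?_
  rw [map_mul]
  exact mul_le_one' (hP _) (hQ _)

lemma PM.mul {P Q : PowerSeries ℂ} (hP : PM R P) (hQ : PI R Q) : PM R (P * Q) := fun n => by
  rw [PowerSeries.coeff_mul]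
  refine R.valuation.map_sum_lt one_ne_zero fun x _ => ?_
  rw [map_mul]
  exact mul_lt_one_of_lt_of_le (hP _) (hQ _)

lemma PM.mul' {P Q : PowerSeries ℂ} (hP : PI R P) (hQ : PM R Q) : PM R (P * Q) := by
  rw [mul_comm]; exact hQ.mul hP

lemma PI.one : PI R 1 := fun n => by
  rw [PowerSeries.coeff_one]
  split_ifs <;> simp

lemma PI.pow {P : PowerSeries ℂ} (hP : PI R P) (n : ℕ) : PI R (P ^ n) := by
  induction n with
  | zero => rw [pow_zero]; exact PI.one
  | succ n ih => rw [pow_succ]; exact ih.mul hP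

lemma PM.pow {P : PowerSeries ℂ} (hP : PM R P) {n : ℕ} (hn : n ≠ 0) : PM R (P ^ n) := by
  obtain ⟨m, rfl⟩ := Nat.exists_eq_succ_of_ne_zero hn
  rw [pow_succ]; exact PM.mul' (hP.pi.pow m) hP

lemma PI.smul {P : PowerSeries ℂ} {c : ℂ} (hc : R.valuation c ≤ 1) (hP : PI R P) :
    PI R (c • P) := fun n => by
  rw [PowerSeries.coeff_smul, smul_eq_mul, map_mul]; exact mul_le_one' hc (hP n)

lemma PM.smul {P : PowerSeries ℂ} {c : ℂ} (hc : R.valuation c ≤ 1) (hP : PM R P) :
    PM R (c • P) := fun n => by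
  rw [PowerSeries.coeff_smul, smul_eq_mul, map_mul, mul_comm]
  exact mul_lt_one_of_lt_of_le (hP n) hc

lemma PM.smul' {P : PowerSeries ℂ} {c : ℂ} (hc : R.valuation c < 1) (hP : PI R P) :
    PM R (c • P) := fun n => by
  rw [PowerSeries.coeff_smul, smul_eq_mul, map_mul]; exact mul_lt_one_of_lt_of_le hc (hP n)

lemma val_int_le (m : ℤ) : R.valuation (m : ℂ) ≤ 1 := by
  rw [ValuationSubring.valuation_le_one_iff]
  exact intCast_mem R m

lemma PI.of_isInt {P : PowerSeries ℂ} (h : IsInt P) : PI R P := fun n => by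
  obtain ⟨m, hm⟩ := h n
  rw [hm]; exact val_int_le m

lemma PI.expP {P : PowerSeries ℂ} (hP : PI R P) (p : ℕ) : PI R (expP p P) := fun n => by
  rw [coeff_expP]
  split_ifs
  · exact hP _
  · simp

lemma PM.expP {P : PowerSeries ℂ} (hP : PM R P) (p : ℕ) : PM R (Eis.expP p P) := fun n => by
  rw [coeff_expP]
  split_ifs
  · exact hP _
  · simp

/-- congruence of products -/
lemma PM.mul_congr {P P' Q Q' : PowerSeries ℂ} (h : PM R (P - P')) (h' : PM R (Q - Q'))
    (hQ : PI R Q) (hP' : PI R P') : PM R (P * Q - P' * Q') := by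
  have : P * Q - P' * Q' = (P - P') * Q + P' * (Q - Q') := by ring
  rw [this]
  exact (h.mul hQ).add (PM.mul' hP' h')

lemma PI.prod {ι : Type*} (s : Finset ι) {F : ι → PowerSeries ℂ} (h : ∀ i ∈ s, PI R (F i)) :
    PI R (∏ i ∈ s, F i) := by
  classical
  induction s using Finset.induction_on with
  | empty => rw [Finset.prod_empty]; exact PI.one
  | insert a s ha ih =>
    rw [Finset.prod_insert ha]
    exact (h a (Finset.mem_insert_self a s)).mul (ih fun j hj => h j (Finset.mem_insert_of_mem hj))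

lemma PM.prod_congr {ι : Type*} (s : Finset ι) {F F' : ι → PowerSeries ℂ}
    (h : ∀ i ∈ s, PM R (F i - F' i)) (hF : ∀ i ∈ s, PI R (F i)) (hF' : ∀ i ∈ s, PI R (F' i)) :
    PM R (∏ i ∈ s, F i - ∏ i ∈ s, F' i) := by
  classical
  induction s using Finset.induction_on with
  | empty =>
    rw [Finset.prod_empty, Finset.prod_empty, sub_self]
    intro n; simp
  | insert a s ha ih =>
    rw [Finset.prod_insert ha, Finset.prod_insert ha]
    refine PM.mul_congr (h a (Finset.mem_insert_self a s))
      (ih (fun j hj => h j (Finset.mem_insert_of_mem hj))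
        (fun j hj => hF j (Finset.mem_insert_of_mem hj))
        (fun j hj => hF' j (Finset.mem_insert_of_mem hj))) ?_
      (hF' a (Finset.mem_insert_self a s))
    exact PI.prod s fun j hj => hF j (Finset.mem_insert_of_mem hj)

end cong

end

end Fermat.Agent.Eis
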