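import Fermat.Agent.Eis.LevelOne

set_option autoImplicit false

open UpperHalfPlane ModularForm Complex Filter Topology Matrix.SpecialLinearGroup
open scoped MatrixGroups Manifold Real
open Fermat.Agent.MFLib

namespace Fermat.Agent.Eis

noncomputable section

local notation "Δ" => ModularForm.discriminant

variable {p : ℕ} [hp : Fact p.Prime] {k : ℤ} {H : ℍ → ℂ}

/-- decomposition of a power series as constant plus the rest -/
def tl (P : PowerSeries ℂ) : PowerSeries ℂ := P - (P.coeff 0) • (1 : PowerSeries ℂ)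

lemma eq_add_tl (P : PowerSeries ℂ) : P = (P.coeff 0) • (1 : PowerSeries ℂ) + tl P := by
  rw [tl]; ring

lemma coeff_tl {P : PowerSeries ℂ} {n : ℕ} (hn : n ≠ 0) : (tl P).coeff n = P.coeff n := by
  rw [tl, map_sub, PowerSeries.coeff_smul, PowerSeries.coeff_one, if_neg hn]
  simp

lemma coeff_zero_tl {P : PowerSeries ℂ} : (tl P).coeff 0 = 0 := by
  rw [tl, map_sub, PowerSeries.coeff_smul, PowerSeries.coeff_one, if_pos rfl]
  simp

lemma isInt_tl {P : PowerSeries ℂ} (h : ∀ n, n ≠ 0 → ∃ m : ℤ, P.coeff n = m) : IsInt (tl P) := by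
  intro n
  by_cases hn : n = 0
  · subst hn; exact ⟨0, by rw [coeff_zero_tl]; simp⟩
  · rw [coeff_tl hn]; exact h n hn

lemma coeff_mul_tl {P Q : PowerSeries ℂ} (n : ℕ) :
    (P * Q).coeff n = P.coeff 0 * Q.coeff n + (tl P * Q).coeff n := by
  conv_lhs => rw [eq_add_tl P]
  rw [add_mul, map_add, smul_mul_assoc, one_mul, PowerSeries.coeff_smul, smul_eq_mul]

/-- `U_p` on power series -/
def uP (p : ℕ) (P : PowerSeries ℂ) : PowerSeries ℂ := PowerSeries.mk fun n => P.coeff (n * p)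

omit hp in
lemma coeff_uP (P : PowerSeries ℂ) (n : ℕ) : (uP p P).coeff n = P.coeff (n * p) := by simp [uP]

lemma qe_fr_weight_two (hH : IsMF (CongruenceSubgroup.Gamma0 p) 2 H) :
    qe (fr p 2 H) = (-((p : ℂ)⁻¹)) • uP p (qe H) := by
  ext n
  rw [coeff_fr_weight_two hH, PowerSeries.coeff_smul, coeff_uP, smul_eq_mul]

section integral

variable (hH : IsMF (CongruenceSubgroup.Gamma0 p) 2 H)
  (hint : ∀ n, n ≠ 0 → ∃ m : ℤ, (qe H).coeff n = m)

include hH in
/-- coefficients of `H · Δ(pz)`, as `S₁₄(SL₂ ℤ) = 0` -/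
lemma coeff_wt14 (n : ℕ) :
    (p : ℂ) ^ 12 * (qe H * expP p (qe (Δ : ℍ → ℂ))).coeff n =
      (uP p (qe H) * qe (Δ : ℍ → ℂ)).coeff (n * p) := by
  have hp' : (p : ℂ) ≠ 0 := by exact_mod_cast hp.out.ne_zero
  have hF : IsMF (CongruenceSubgroup.Gamma0 p) 14 (H * fr p 12 (Δ : ℍ → ℂ)) :=
    (hH.mul isMF_frDisc).congr_weight (by norm_num)
  have hfrF : fr p 14 (H * fr p 12 (Δ : ℍ → ℂ)) =
      ((p : ℂ) ^ 12)⁻¹ • (fr p 2 H * (Δ : ℍ → ℂ)) := by
    rw [fr_mul' 2 12 14 H _ (by norm_num), fr_fr_disc, mul_smul_comm]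
  have hH2 := (isMF_fr hH).qg T_mem
  have hq1 : qe (H * fr p 12 (Δ : ℍ → ℂ)) = qe H * expP p (qe (Δ : ℍ → ℂ)) := by
    rw [(hH.qg T_mem).qe_mul (isMF_frDisc.qg T_mem), qe_fr_top isMF_disc]
  have hq2 : qe (fr p 14 (H * fr p 12 (Δ : ℍ → ℂ))) =
      (-((p : ℂ) ^ 13)⁻¹) • (uP p (qe H) * qe (Δ : ℍ → ℂ)) := by
    rw [hfrF, (hH2.mul qg_disc).qe_smul, hH2.qe_mul qg_disc, qe_fr_weight_two hH, smul_mul_assoc,
      smul_smul]
    congr 1
    field_simp
  have hd0 : PowerSeries.constantCoeff (qe (Δ : ℍ → ℂ)) = 0 := by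
    rw [← PowerSeries.coeff_zero_eq_constantCoeff_apply]; exact tau_zero
  have htr : tr (CongruenceSubgroup.Gamma0 p) 14 (H * fr p 12 (Δ : ℍ → ℂ)) = 0 := by
    refine eq_zero_of_wt14 (isMF_tr hF) ?_
    rw [qe_tr hF, hq1, hq2, zero_mul, PowerSeries.coeff_smul]
    have e1 : (qe H * expP p (qe (Δ : ℍ → ℂ))).coeff 0 = 0 := by
      rw [PowerSeries.coeff_zero_eq_constantCoeff_apply, map_mul,
        ← PowerSeries.coeff_zero_eq_constantCoeff_apply (expP p _), coeff_expP,
        if_pos (dvd_zero _), Nat.zero_div, PowerSeries.coeff_zero_eq_constantCoeff_apply, hd0,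
        mul_zero]
    have e2 : (uP p (qe H) * qe (Δ : ℍ → ℂ)).coeff 0 = 0 := by
      rw [PowerSeries.coeff_zero_eq_constantCoeff_apply, map_mul, hd0, mul_zero]
    rw [e1, e2]; simp
  have h1 := qe_tr hF n
  rw [htr, hq1, hq2, PowerSeries.coeff_smul, smul_eq_mul, qe, qExpansion_zero] at h1
  simp only [map_zero] at h1
  field_simp at h1
  linear_combination (-1 : ℂ) * h1

include hint in
lemma isInt_uP : ∀ n, n ≠ 0 → ∃ m : ℤ, (uP p (qe H)).coeff n = m := by
  intro n hn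
  rw [coeff_uP]
  exact hint _ (mul_ne_zero hn hp.out.ne_zero)

omit hp in
lemma coeff_zero_uP : (uP p (qe H)).coeff 0 = (qe H).coeff 0 := by
  rw [coeff_uP, zero_mul]

include hH hint in
lemma exists_c_tau : ∃ m : ℤ, (qe H).coeff 0 * tau p = m := by
  have h1 := coeff_wt14 hH 1
  rw [one_mul, coeff_mul_tl p, coeff_zero_uP, ← tau] at h1
  have h2 : (qe H * expP p (qe (Δ : ℍ → ℂ))).coeff 1 = 0 := by
    have hx0 : (expP p (qe (Δ : ℍ → ℂ))).coeff 0 = 0 := by
      rw [coeff_expP, if_pos (dvd_zero _), Nat.zero_div]; exact tau_zero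
    have hx1 : (expP p (qe (Δ : ℍ → ℂ))).coeff 1 = 0 := by
      rw [coeff_expP, if_neg (fun h => hp.out.one_lt.ne' (Nat.dvd_one.1 h))]
    rw [PowerSeries.coeff_mul]
    have : Finset.HasAntidiagonal.antidiagonal 1 = {(0, 1), (1, 0)} := rfl
    rw [this, Finset.sum_pair (by decide), hx0, hx1]
    simp
  rw [h2, mul_zero] at h1
  obtain ⟨m, hm⟩ := ((isInt_tl (isInt_uP (p := p) hint)).mul isInt_disc) p
  refine ⟨-m, ?_⟩
  push_cast
  rw [← hm]
  linear_combination (-1 : ℂ) * h1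

include hH hint in
lemma exists_c_succ : ∃ m : ℤ, (qe H).coeff 0 * ((p : ℂ) ^ 11 * (p + 1)) = m := by
  have h1 := coeff_wt14 hH p
  have hx : (expP p (qe (Δ : ℍ → ℂ))).coeff p = 1 := by
    rw [coeff_expP, if_pos dvd_rfl, Nat.div_self hp.out.pos, ← tau, tau_one]
  have hxi : IsInt (expP p (qe (Δ : ℍ → ℂ))) := by
    intro n
    rw [coeff_expP]
    split_ifs
    · exact isInt_disc _
    · exact ⟨0, by simp⟩
  rw [coeff_mul_tl p, hx, coeff_mul_tl (p * p), coeff_zero_uP, ← tau, tau_sq] at h1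
  obtain ⟨m1, hm1⟩ := ((isInt_tl hint).mul hxi) p
  obtain ⟨m2, hm2⟩ := ((isInt_tl (isInt_uP (p := p) hint)).mul isInt_disc) (p * p)
  obtain ⟨m3, hm3⟩ := exists_c_tau hH hint
  obtain ⟨m4, hm4⟩ := isInt_tau p
  rw [hm1, hm2] at h1
  refine ⟨m3 * m4 + m2 - p ^ 12 * m1, ?_⟩
  push_cast
  rw [← hm3, ← hm4]
  linear_combination h1

include hH hint in
/-- `12 c` is integral away from `p` -/
lemma val_twelve_of_unit {R : ValuationSubring ℂ} (hR : R.valuation (p : ℂ) = 1) :
    R.valuation (12 * (qe H).coeff 0) ≤ 1 ∧ R.valuation ((p + 1) * (qe H).coeff 0) ≤ 1 := by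
  have hp' : (p : ℂ) ≠ 0 := by exact_mod_cast hp.out.ne_zero
  set c := (qe H).coeff 0 with hc
  obtain ⟨m, hm⟩ := exists_c_succ hH hint
  rw [← hc] at hm
  constructor
  · by_contra hlt
    rw [not_le] at hlt
    have hc0 : c ≠ 0 := by
      rintro h0
      rw [h0, mul_zero, map_zero] at hlt
      exact absurd hlt (not_lt.2 zero_le_one)
    have hinv : R.valuation ((12 * c)⁻¹) < 1 := by
      rw [map_inv₀]
      exact inv_lt_one_of_one_lt₀ hlt
    have hG := hH.smul c⁻¹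
    have e1 : qe (c⁻¹ • H) = 1 + (12 : ℂ) • ((12 * c)⁻¹ • tl (qe H)) := by
      rw [(hH.qg T_mem).qe_smul]
      conv_lhs => rw [eq_add_tl (qe H)]
      rw [← hc, smul_add, smul_smul, inv_mul_cancel₀ hc0, one_smul, smul_smul]
      congr 2
      field_simp
    have e2 : qe (fr p 2 (c⁻¹ • H)) = 1 + (12 : ℂ) • ((12 * c)⁻¹ •
        (-((p : ℂ)⁻¹) • tl (uP p (qe H)) + (-(m * ((p : ℂ) ^ 12)⁻¹)) • (1 : PowerSeries ℂ))) := by
      rw [fr_smul, ((isMF_fr hH).qg T_mem).qe_smul, qe_fr_weight_two hH]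
      conv_lhs => rw [eq_add_tl (uP p (qe H))]
      rw [coeff_zero_uP, ← hc, ← hm]
      ext n
      simp only [PowerSeries.coeff_smul, map_add, smul_eq_mul]
      by_cases hn : n = 0
      · subst hn
        simp only [PowerSeries.coeff_zero_one, coeff_zero_tl]
        field_simp
        ring
      · simp only [PowerSeries.coeff_one, if_neg hn]
        field_simp
        ring
    refine no_form hG (PM.smul' hinv (PI.of_isInt (isInt_tl hint))) (PM.smul' hinv (PI.add ?_ ?_))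
      e1 e2
    · refine PI.smul ?_ (PI.of_isInt (isInt_tl (isInt_uP (p := p) hint)))
      rw [Valuation.map_neg, map_inv₀, hR, inv_one]
    · refine PI.smul ?_ PI.one
      rw [Valuation.map_neg, map_mul, map_inv₀, map_pow, hR, one_pow, inv_one, mul_one]
      exact val_int_le m
  · have h1 : R.valuation (c * ((p : ℂ) ^ 11 * (p + 1))) ≤ 1 := by
      rw [hm]; exact val_int_le m
    rw [map_mul, map_mul, map_pow, hR, one_pow, one_mul, mul_comm] at h1
    rw [map_mul]
    exact h1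

end integral

/-- `qe` of a square trace -/
lemma tr_sq (hH : IsMF (CongruenceSubgroup.Gamma0 p) 2 H) (n : ℕ) :
    (qe (tr (CongruenceSubgroup.Gamma0 p) 4 (H ^ 2))).coeff n =
      (qe H ^ 2).coeff n + (p : ℂ)⁻¹ * (uP p (qe H) ^ 2).coeff (n * p) := by
  have hp' : (p : ℂ) ≠ 0 := by exact_mod_cast hp.out.ne_zero
  have hF : IsMF (CongruenceSubgroup.Gamma0 p) 4 (H ^ 2) := (hH.pow 2).congr_weight (by norm_num)
  have hH2 := (isMF_fr hH).qg T_mem
  rw [qe_tr hF, fr_pow' 2 4 H 2 (by norm_num), hH2.qe_pow, (hH.qg T_mem).qe_pow,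
    qe_fr_weight_two hH, smul_pow, PowerSeries.coeff_smul, smul_eq_mul]
  congr 1
  field_simp

lemma tr_cube (hH : IsMF (CongruenceSubgroup.Gamma0 p) 2 H) (n : ℕ) :
    (qe (tr (CongruenceSubgroup.Gamma0 p) 6 (H ^ 3))).coeff n =
      (qe H ^ 3).coeff n - ((p : ℂ) ^ 2)⁻¹ * (uP p (qe H) ^ 3).coeff (n * p) := by
  have hp' : (p : ℂ) ≠ 0 := by exact_mod_cast hp.out.ne_zero
  have hF : IsMF (CongruenceSubgroup.Gamma0 p) 6 (H ^ 3) := (hH.pow 3).congr_weight (by norm_num)
  have hH2 := (isMF_fr hH).qg T_mem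
  rw [qe_tr hF, fr_pow' 2 6 H 3 (by norm_num), hH2.qe_pow, (hH.qg T_mem).qe_pow,
    qe_fr_weight_two hH, smul_pow, PowerSeries.coeff_smul, smul_eq_mul]
  field_simp
  ring

lemma coeff_sq_of_ne {P : PowerSeries ℂ} {n : ℕ} (hn : n ≠ 0) :
    (P ^ 2).coeff n = 2 * P.coeff 0 * P.coeff n + (tl P ^ 2).coeff n := by
  conv_lhs => rw [eq_add_tl P]
  have : (P.coeff 0 • (1 : PowerSeries ℂ) + tl P) ^ 2 = (P.coeff 0 ^ 2) • (1 : PowerSeries ℂ) +
      (2 * P.coeff 0) • tl P + tl P ^ 2 := by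
    simp only [smul_eq_C_mul', map_mul, map_ofNat, map_pow]
    ring
  rw [this, map_add, map_add, PowerSeries.coeff_smul, PowerSeries.coeff_smul,
    PowerSeries.coeff_one, if_neg hn, coeff_tl hn]
  simp

lemma coeff_cube_of_ne {P : PowerSeries ℂ} {n : ℕ} (hn : n ≠ 0) :
    (P ^ 3).coeff n = 3 * P.coeff 0 ^ 2 * P.coeff n + 3 * P.coeff 0 * (tl P ^ 2).coeff n +
      (tl P ^ 3).coeff n := by
  conv_lhs => rw [eq_add_tl P]
  have : (P.coeff 0 • (1 : PowerSeries ℂ) + tl P) ^ 3 = (P.coeff 0 ^ 3) • (1 : PowerSeries ℂ) +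
      (3 * P.coeff 0 ^ 2) • tl P + (3 * P.coeff 0) • tl P ^ 2 + tl P ^ 3 := by
    simp only [smul_eq_C_mul', map_mul, map_ofNat, map_pow]
    ring
  rw [this, map_add, map_add, map_add, PowerSeries.coeff_smul, PowerSeries.coeff_smul,
    PowerSeries.coeff_smul, PowerSeries.coeff_one, if_neg hn, coeff_tl hn]
  simp

omit hp in
lemma val_eq_one_of_coprime {R : ValuationSubring ℂ} (hR : R.valuation (p : ℂ) < 1) {n : ℕ}
    (hn : Nat.Coprime n p) : R.valuation (n : ℂ) = 1 := by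
  refine le_antisymm (val_natCast_le n) (not_lt.1 fun hlt => ?_)
  have hb : IsCoprime (n : ℤ) (p : ℤ) := Nat.isCoprime_iff_coprime.2 hn
  obtain ⟨a, b, hab⟩ := hb
  have h1 : (a : ℂ) * n + b * p = 1 := by exact_mod_cast hab
  have h2 : R.valuation ((a : ℂ) * n + b * p) < 1 := by
    refine (R.valuation.map_add _ _).trans_lt (max_lt ?_ ?_)
    · rw [map_mul, mul_comm]; exact mul_lt_one_of_lt_of_le hlt (val_int_le a)
    · rw [map_mul, mul_comm]; exact mul_lt_one_of_lt_of_le hR (val_int_le b)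
  rw [h1, map_one] at h2
  exact lt_irrefl _ h2

omit hp in
lemma val_add_one {R : ValuationSubring ℂ} (hR : R.valuation (p : ℂ) < 1) :
    R.valuation ((p : ℂ) + 1) = 1 := by
  have := val_eq_one_of_coprime hR (n := p + 1) (by simp)
  exact_mod_cast this

lemma val_sub_one {R : ValuationSubring ℂ} (hR : R.valuation (p : ℂ) < 1) :
    R.valuation ((p : ℂ) - 1) = 1 := by
  have := val_eq_one_of_coprime hR (n := p - 1) (by
    have h1 := hp.out.one_lt
    rw [Nat.coprime_comm]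
    exact (Nat.coprime_self_sub_right (by omega)).2 (by simp))
  rw [Nat.cast_sub hp.out.one_lt.le] at this
  simpa using this

section integral2

variable (hH : IsMF (CongruenceSubgroup.Gamma0 p) 2 H)
  (hint : ∀ n, n ≠ 0 → ∃ m : ℤ, (qe H).coeff n = m)

lemma val_ofInt {R : ValuationSubring ℂ} {x : ℂ} (h : ∃ m : ℤ, x = m) : R.valuation x ≤ 1 := by
  obtain ⟨m, rfl⟩ := h; exact val_int_le m

include hH hint in
lemma val_of_lt_sq {R : ValuationSubring ℂ} (hR : R.valuation (p : ℂ) < 1)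
    (hc : Nat.Coprime 240 p) : R.valuation ((qe H).coeff 0) ≤ 1 := by
  have hp' : (p : ℂ) ≠ 0 := by exact_mod_cast hp.out.ne_zero
  by_contra hlt
  rw [not_le] at hlt
  set c := (qe H).coeff 0 with hcdef
  have hF : IsMF (CongruenceSubgroup.Gamma0 p) 4 (H ^ 2) := (hH.pow 2).congr_weight (by norm_num)
  have h0 := tr_sq hH 0
  have h1 := tr_sq hH 1
  have h2 := eq_smul_of_wt_lt (isMF_tr hF) isMF_E4 (by norm_num) coeff_zero_qe_E4
  have hsq0 : ∀ P : PowerSeries ℂ, (P ^ 2).coeff 0 = P.coeff 0 ^ 2 := fun P => by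
    simp only [PowerSeries.coeff_zero_eq_constantCoeff_apply, map_pow]
  rw [zero_mul, hsq0, hsq0, coeff_zero_uP, ← hcdef] at h0
  rw [h2, qg_E4.qe_smul, PowerSeries.coeff_smul, smul_eq_mul, h0, qe_E4, map_add,
    PowerSeries.coeff_smul, coeff_sg, PowerSeries.coeff_one, if_neg one_ne_zero,
    coeff_sq_of_ne one_ne_zero, one_mul, coeff_sq_of_ne hp.out.ne_zero, coeff_zero_uP,
    ← hcdef] at h1
  have h3 : (240 : ℂ) * (p + 1) * c ^ 2 = p * (2 * c * (qe H).coeff 1 + (tl (qe H) ^ 2).coeff 1) +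
      (2 * c * (uP p (qe H)).coeff p + (tl (uP p (qe H)) ^ 2).coeff p) := by
    simp at h1
    field_simp at h1
    linear_combination h1
  have v1 : R.valuation ((240 : ℂ) * (p + 1) * c ^ 2) = R.valuation c ^ 2 := by
    have := val_eq_one_of_coprime hR hc
    rw [Nat.cast_ofNat] at this
    rw [map_mul, map_mul, this, val_add_one hR, map_pow, one_mul, one_mul]
  have w1 : R.valuation (2 : ℂ) ≤ 1 := val_ofNat_le 2
  have w2 : R.valuation ((tl (qe H) ^ 2).coeff 1) ≤ 1 := val_ofInt ((isInt_tl hint).pow 2 1)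
  have w3 : R.valuation ((tl (uP p (qe H)) ^ 2).coeff p) ≤ 1 :=
    val_ofInt ((isInt_tl (isInt_uP (p := p) hint)).pow 2 p)
  have w4 : R.valuation ((qe H).coeff 1) ≤ 1 := val_ofInt (hint 1 one_ne_zero)
  have w5 : R.valuation ((uP p (qe H)).coeff p) ≤ 1 :=
    val_ofInt (isInt_uP (p := p) hint p hp.out.ne_zero)
  have v2 : R.valuation c ^ 2 ≤ R.valuation c := by
    rw [← v1, h3]
    refine (R.valuation.map_add _ _).trans (max_le ?_ ?_)
    · rw [map_mul]
      refine (mul_le_of_le_one_left' hR.le).trans ((R.valuation.map_add _ _).trans (max_le ?_ ?_))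
      · rw [map_mul, map_mul]
        exact (mul_le_of_le_one_right' w4).trans (mul_le_of_le_one_left' w1)
      · exact w2.trans hlt.le
    · refine (R.valuation.map_add _ _).trans (max_le ?_ (w3.trans hlt.le))
      rw [map_mul, map_mul]
      exact (mul_le_of_le_one_right' w5).trans (mul_le_of_le_one_left' w1)
  have v3 : 0 < R.valuation c := lt_trans zero_lt_one hlt
  rw [pow_two] at v2
  exact absurd ((mul_le_iff_le_one_left v3).1 v2) (not_le.2 hlt)

include hH hint in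
lemma val_of_lt_cube {R : ValuationSubring ℂ} (hR : R.valuation (p : ℂ) < 1)
    (hc : Nat.Coprime 504 p) : R.valuation ((qe H).coeff 0) ≤ 1 := by
  have hp' : (p : ℂ) ≠ 0 := by exact_mod_cast hp.out.ne_zero
  by_contra hlt
  rw [not_le] at hlt
  set c := (qe H).coeff 0 with hcdef
  have hF : IsMF (CongruenceSubgroup.Gamma0 p) 6 (H ^ 3) := (hH.pow 3).congr_weight (by norm_num)
  have h0 := tr_cube hH 0
  have h1 := tr_cube hH 1
  have h2 := eq_smul_of_wt_lt (isMF_tr hF) isMF_E6 (by norm_num) coeff_zero_qe_E6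
  have hsq0 : ∀ P : PowerSeries ℂ, (P ^ 3).coeff 0 = P.coeff 0 ^ 3 := fun P => by
    simp only [PowerSeries.coeff_zero_eq_constantCoeff_apply, map_pow]
  rw [zero_mul, hsq0, hsq0, coeff_zero_uP, ← hcdef] at h0
  rw [h2, qg_E6.qe_smul, PowerSeries.coeff_smul, smul_eq_mul, h0, qe_E6, map_sub,
    PowerSeries.coeff_smul, coeff_sg, PowerSeries.coeff_one, if_neg one_ne_zero,
    coeff_cube_of_ne one_ne_zero, one_mul, coeff_cube_of_ne hp.out.ne_zero, coeff_zero_uP,
    ← hcdef] at h1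
  have h3 : (504 : ℂ) * ((p + 1) * (p - 1)) * c ^ 3 =
      (3 * c ^ 2 * (uP p (qe H)).coeff p + 3 * c * (tl (uP p (qe H)) ^ 2).coeff p +
        (tl (uP p (qe H)) ^ 3).coeff p) - p ^ 2 * (3 * c ^ 2 * (qe H).coeff 1 +
        3 * c * (tl (qe H) ^ 2).coeff 1 + (tl (qe H) ^ 3).coeff 1) := by
    simp at h1
    field_simp at h1
    linear_combination (-1 : ℂ) * h1
  have v1 : R.valuation ((504 : ℂ) * ((p + 1) * (p - 1)) * c ^ 3) = R.valuation c ^ 3 := by
    have := val_eq_one_of_coprime hR hc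
    rw [Nat.cast_ofNat] at this
    rw [map_mul, map_mul, map_mul, this, val_add_one hR, val_sub_one hR, map_pow, one_mul,
      one_mul, one_mul]
  have v3 : 0 < R.valuation c := lt_trans zero_lt_one hlt
  have hcc : R.valuation c ≤ R.valuation c ^ 2 := by
    rw [pow_two]; exact (le_mul_iff_one_le_left v3).2 hlt.le
  have key : ∀ x y z : ℂ, R.valuation x ≤ 1 → R.valuation y ≤ 1 → R.valuation z ≤ 1 →
      R.valuation (3 * c ^ 2 * x + 3 * c * y + z) ≤ R.valuation c ^ 2 := by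
    intro x y z hx hy hz
    have w1 : R.valuation (3 : ℂ) ≤ 1 := val_ofNat_le 3
    refine (R.valuation.map_add _ _).trans (max_le ((R.valuation.map_add _ _).trans
      (max_le ?_ ?_)) ((hz.trans hlt.le).trans hcc))
    · rw [map_mul, map_mul, map_pow]
      exact (mul_le_of_le_one_right' hx).trans (mul_le_of_le_one_left' w1)
    · rw [map_mul, map_mul]
      exact ((mul_le_of_le_one_right' hy).trans (mul_le_of_le_one_left' w1)).trans hcc
  have v2 : R.valuation c ^ 3 ≤ R.valuation c ^ 2 := by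
    rw [← v1, h3]
    refine (R.valuation.map_sub _ _).trans (max_le ?_ ?_)
    · exact key _ _ _ (val_ofInt (isInt_uP (p := p) hint p hp.out.ne_zero))
        (val_ofInt ((isInt_tl (isInt_uP (p := p) hint)).pow 2 p))
        (val_ofInt ((isInt_tl (isInt_uP (p := p) hint)).pow 3 p))
    · rw [map_mul, map_pow]
      refine (mul_le_of_le_one_left' (pow_le_one' hR.le 2)).trans (key _ _ _
        (val_ofInt (hint 1 one_ne_zero)) (val_ofInt ((isInt_tl hint).pow 2 1))
        (val_ofInt ((isInt_tl hint).pow 3 1)))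
  rw [pow_succ' _ 2] at v2
  exact absurd ((mul_le_iff_le_one_left (pow_pos v3 2)).1 v2) (not_le.2 hlt)

include hH hint in
lemma val_of_lt {R : ValuationSubring ℂ} (hR : R.valuation (p : ℂ) < 1) (h5 : 5 ≤ p) :
    R.valuation ((qe H).coeff 0) ≤ 1 := by
  by_cases h7 : p = 7
  · refine val_of_lt_sq hH hint hR ?_
    rw [h7]; decide
  · refine val_of_lt_cube hH hint hR ?_
    rw [Nat.coprime_comm, hp.out.coprime_iff_not_dvd]
    intro hd
    have h504 : 504 = 2 ^ 3 * 3 ^ 2 * 7 := by norm_num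
    rw [h504, hp.out.dvd_mul, hp.out.dvd_mul] at hd
    rcases hd with (hd | hd) | hd
    · have := Nat.le_of_dvd (by norm_num) (hp.out.dvd_of_dvd_pow hd); omega
    · have := Nat.le_of_dvd (by norm_num) (hp.out.dvd_of_dvd_pow hd); omega
    · exact h7 ((Nat.prime_dvd_prime_iff_eq hp.out (by norm_num)).1 hd)

lemma int_of_forall_val {x : ℂ} {q : ℚ} (hx : x = q)
    (h : ∀ R : ValuationSubring ℂ, R.valuation x ≤ 1) : ∃ m : ℤ, x = m := by
  have h1 : x ∈ (integralClosure (Subring.closure (∅ : Set ℂ)) ℂ).toSubring := by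
    rw [← iInf_valuationSubring_superset, Subring.mem_iInf]
    intro V
    exact (ValuationSubring.valuation_le_one_iff _ _).1 (h V.1)
  have h2 : IsIntegral ℤ x := by
    have h3 : IsIntegral (Subring.closure (∅ : Set ℂ)) x := h1
    have : Algebra.IsIntegral ℤ (Subring.closure (∅ : Set ℂ)) := ⟨fun y => by
      have hy : (y : ℂ) ∈ (⊥ : Subring ℂ) := by rw [← Subring.closure_empty]; exact y.2
      obtain ⟨n, hn⟩ := Subring.mem_bot.1 hy
      have : y = algebraMap ℤ _ n := Subtype.ext (by simp [hn])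
      rw [this]
      exact isIntegral_algebraMap⟩
    exact isIntegral_trans x h3
  rw [hx] at h2
  have h4 : IsIntegral ℤ q := by
    have : IsIntegral ℤ (algebraMap ℚ ℂ q) := by simpa using h2
    exact (isIntegral_algebraMap_iff (algebraMap ℚ ℂ).injective).1 this
  obtain ⟨m, hm⟩ := IsIntegrallyClosed.isIntegral_iff.1 h4
  refine ⟨m, ?_⟩
  rw [hx, ← hm]
  simp

lemma exists_rat_of_int_mul {x : ℂ} {n : ℕ} (hn : n ≠ 0) {m : ℤ} (h : x * n = m) :
    ∃ q : ℚ, x = q := by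
  have hn' : (n : ℂ) ≠ 0 := by exact_mod_cast hn
  refine ⟨(m : ℚ) / n, ?_⟩
  push_cast
  rw [← h]
  field_simp

include hH hint in
/-- the upper bound for the constant terms of integral weight two forms of prime level -/
theorem const_dvd (h5 : 5 ≤ p) :
    ∃ z : ℤ, 24 * (qe H).coeff 0 = (Nat.gcd (p - 1) 12 : ℕ) * (z : ℂ) := by
  have hp0 := hp.out.pos
  set c := (qe H).coeff 0 with hcdef
  have hval : ∀ R : ValuationSubring ℂ, R.valuation (12 * c) ≤ 1 ∧
      R.valuation ((p + 1) * c) ≤ 1 := by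
    intro R
    rcases (val_natCast_le (R := R) p).lt_or_eq with h | h
    · have h1 := val_of_lt hH hint h h5
      rw [← hcdef] at h1
      constructor
      · rw [map_mul]; exact mul_le_one' (val_ofNat_le 12) h1
      · rw [map_mul, val_add_one h, one_mul]; exact h1
    · exact val_twelve_of_unit hH hint h
  obtain ⟨m, hm⟩ := exists_c_succ hH hint
  obtain ⟨q, hq⟩ : ∃ q : ℚ, c = q :=
    exists_rat_of_int_mul (n := p ^ 11 * (p + 1)) (by positivity) (m := m) (by
      rw [← hm]; push_cast; rfl)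
  obtain ⟨a, ha⟩ := int_of_forall_val (x := 12 * c) (q := 12 * q) (by rw [hq]; push_cast; rfl)
    fun R => (hval R).1
  obtain ⟨b, hb⟩ := int_of_forall_val (x := (p + 1) * c) (q := (p + 1) * q)
    (by rw [hq]; push_cast; rfl) fun R => (hval R).2
  have h2 : ¬ 2 ∣ p := fun h => by
    have := (Nat.prime_dvd_prime_iff_eq Nat.prime_two hp.out).1 h; omega
  have h3 : ¬ 3 ∣ p := fun h => by
    have := (Nat.prime_dvd_prime_iff_eq Nat.prime_three hp.out).1 h; omega
  have hmod : p % 12 = 1 ∨ p % 12 = 5 ∨ p % 12 = 7 ∨ p % 12 = 11 := by omega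
  set t := p / 12 with ht
  have hgcd : Nat.gcd (p - 1) 12 = Nat.gcd ((p - 1) % 12) 12 := by
    rw [Nat.gcd_comm, Nat.gcd_rec]
  rcases hmod with h | h | h | h
  · have e : p = 12 * t + 1 := by omega
    have hg : Nat.gcd (p - 1) 12 = 12 := by
      rw [hgcd, show (p - 1) % 12 = 0 by omega]; rfl
    have e' : (p : ℂ) = 12 * t + 1 := by exact_mod_cast e
    refine ⟨b - t * a, ?_⟩
    rw [hg]; push_cast; rw [← ha, ← hb, e']; ring
  · have e : p = 12 * t + 5 := by omega
    have hg : Nat.gcd (p - 1) 12 = 4 := by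
      rw [hgcd, show (p - 1) % 12 = 4 by omega]; rfl
    have e' : (p : ℂ) = 12 * t + 5 := by exact_mod_cast e
    refine ⟨b - t * a, ?_⟩
    rw [hg]; push_cast; rw [← ha, ← hb, e']; ring
  · have e : p = 12 * t + 7 := by omega
    have hg : Nat.gcd (p - 1) 12 = 6 := by
      rw [hgcd, show (p - 1) % 12 = 6 by omega]; rfl
    have e' : (p : ℂ) = 12 * t + 7 := by exact_mod_cast e
    refine ⟨a - (b - t * a), ?_⟩
    rw [hg]; push_cast; rw [← ha, ← hb, e']; ring
  · have e : p = 12 * t + 11 := by omega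
    have hg : Nat.gcd (p - 1) 12 = 2 := by
      rw [hgcd, show (p - 1) % 12 = 10 by omega]; rfl
    have e' : (p : ℂ) = 12 * t + 11 := by exact_mod_cast e
    refine ⟨a, ?_⟩
    rw [hg]; push_cast; rw [← ha]; ring

end integral2

end

end Fermat.Agent.Eis
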