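import Fermat.Agent.MFLib.DeltaN
import Fermat.Agent.MFLib.Esymm
import Fermat.Agent.Cosets.Basic

set_option autoImplicit false

open UpperHalfPlane ModularForm Complex Filter Topology Matrix.SpecialLinearGroup
open scoped MatrixGroups Manifold Real
open Fermat.Agent.MFLib

namespace Fermat.Agent.Eis

noncomputable section

variable (p : ℕ)

/-- representatives `1, S T^j` of the cosets `Γ₀(p) \ SL₂(ℤ)` -/
def rep : Option (Fin p) → SL(2, ℤ)
  | none => 1
  | some j => ModularGroup.S * ModularGroup.T ^ (j : ℕ)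

@[simp] lemma rep_none : rep p none = 1 := rfl
@[simp] lemma rep_some (j : Fin p) : rep p (some j) = ModularGroup.S * ModularGroup.T ^ (j : ℕ) := rfl

lemma T_pow_entries (n : ℕ) : ((ModularGroup.T ^ n : SL(2, ℤ)) 0 0 = 1) ∧
    ((ModularGroup.T ^ n : SL(2, ℤ)) 0 1 = n) ∧ ((ModularGroup.T ^ n : SL(2, ℤ)) 1 0 = 0) ∧
    ((ModularGroup.T ^ n : SL(2, ℤ)) 1 1 = 1) := by
  have h : ((ModularGroup.T ^ n : SL(2, ℤ)) : Matrix (Fin 2) (Fin 2) ℤ) = !![1, (n : ℤ); 0, 1] := by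
    rw [← zpow_natCast, ModularGroup.coe_T_zpow]
  refine ⟨?_, ?_, ?_, ?_⟩ <;> rw [h] <;> simp

lemma rep_some_entries (j : Fin p) : (rep p (some j) 0 0 = 0) ∧ (rep p (some j) 0 1 = -1) ∧
    (rep p (some j) 1 0 = 1) ∧ (rep p (some j) 1 1 = (j : ℕ)) := by
  obtain ⟨h1, h2, h3, h4⟩ := T_pow_entries (j : ℕ)
  have hS : (ModularGroup.S : Matrix (Fin 2) (Fin 2) ℤ) = !![0, -1; 1, 0] := rfl
  refine ⟨?_, ?_, ?_, ?_⟩ <;>
  · rw [rep_some, Matrix.SpecialLinearGroup.coe_mul, Matrix.mul_apply, Fin.sum_univ_two, hS]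
    simp [h1, h2, h3, h4]

variable [hp : Fact p.Prime]

omit hp in
lemma rep_inv_mk_eq_iff (g h : SL(2, ℤ)) :
    ((g⁻¹ : SL(2, ℤ)) : SL(2, ℤ) ⧸ CongruenceSubgroup.Gamma0 p) =
      ((h⁻¹ : SL(2, ℤ)) : SL(2, ℤ) ⧸ CongruenceSubgroup.Gamma0 p) ↔
      (p : ℤ) ∣ g 1 1 * h 1 0 - g 1 0 * h 1 1 := by
  have e00 : ∀ g : SL(2, ℤ), g⁻¹ 0 0 = g 1 1 := fun g => by
    rw [Matrix.SpecialLinearGroup.SL2_inv_expl]; rfl
  rw [Cosets.mk_eq_iff, e00, e00, Cosets.inv_apply_one_zero, Cosets.inv_apply_one_zero, ← dvd_neg]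
  ring_nf

/-- the bijection between `P¹(𝔽_p)` and the cosets -/
lemma rep_bijective : Function.Bijective (fun x : Option (Fin p) =>
    (((rep p x)⁻¹ : SL(2, ℤ)) : SL(2, ℤ) ⧸ CongruenceSubgroup.Gamma0 p)) := by
  have hp1 : ¬ (p : ℤ) ∣ 1 := by
    intro h
    have h2 : (p : ℤ) ∣ ((1 : ℕ) : ℤ) := by rw [Nat.cast_one]; exact h
    exact hp.out.one_lt.ne' (Nat.dvd_one.1 (Int.natCast_dvd_natCast.1 h2))
  constructor
  · intro x y hxy
    have h := (rep_inv_mk_eq_iff p _ _).1 hxy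
    match x, y with
    | none, none => rfl
    | none, some j =>
      obtain ⟨h1, h2, h3, h4⟩ := rep_some_entries p j
      rw [h3, h4] at h
      exact absurd (by simpa using h) hp1
    | some i, none =>
      obtain ⟨h1, h2, h3, h4⟩ := rep_some_entries p i
      rw [h3, h4] at h
      exact absurd (by simpa using h) hp1
    | some i, some j =>
      obtain ⟨h1, h2, h3, h4⟩ := rep_some_entries p i
      obtain ⟨g1, g2, g3, g4⟩ := rep_some_entries p j
      rw [h3, h4, g3, g4, mul_one, one_mul] at h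
      congr 1
      have hi := i.2
      have hj := j.2
      have h5 : ((i : ℕ) : ℤ) - (j : ℕ) = 0 := by
        apply Int.eq_zero_of_abs_lt_dvd h
        rw [abs_lt]
        constructor <;> omega
      exact Fin.ext (by omega)
  · intro q
    induction q using QuotientGroup.induction_on with
    | H g =>
      by_cases hc : (p : ℤ) ∣ g⁻¹ 1 0
      · refine ⟨none, ?_⟩
        have : ((g : SL(2, ℤ)) : SL(2, ℤ) ⧸ CongruenceSubgroup.Gamma0 p) =
          (((g⁻¹)⁻¹ : SL(2, ℤ)) : SL(2, ℤ) ⧸ CongruenceSubgroup.Gamma0 p) := by rw [inv_inv]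
        rw [this]
        change (((rep p none)⁻¹ : SL(2, ℤ)) : SL(2, ℤ) ⧸ CongruenceSubgroup.Gamma0 p) = _
        rw [rep_inv_mk_eq_iff]
        simpa using hc
      · -- `j = d / c`
        have hc' : ((g⁻¹ 1 0 : ℤ) : ZMod p) ≠ 0 := by
          rwa [Ne, ZMod.intCast_zmod_eq_zero_iff_dvd]
        let z : ZMod p := ((g⁻¹ 1 1 : ℤ) : ZMod p) / ((g⁻¹ 1 0 : ℤ) : ZMod p)
        have : NeZero p := ⟨hp.out.ne_zero⟩
        refine ⟨some ⟨z.val, z.val_lt⟩, ?_⟩
        have : ((g : SL(2, ℤ)) : SL(2, ℤ) ⧸ CongruenceSubgroup.Gamma0 p) =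
          (((g⁻¹)⁻¹ : SL(2, ℤ)) : SL(2, ℤ) ⧸ CongruenceSubgroup.Gamma0 p) := by rw [inv_inv]
        rw [this]
        change (((rep p (some ⟨z.val, z.val_lt⟩))⁻¹ : SL(2, ℤ)) :
          SL(2, ℤ) ⧸ CongruenceSubgroup.Gamma0 p) = _
        rw [rep_inv_mk_eq_iff]
        obtain ⟨h1, h2, h3, h4⟩ := rep_some_entries p ⟨z.val, z.val_lt⟩
        rw [h3, h4, one_mul, ← ZMod.intCast_zmod_eq_zero_iff_dvd]
        push_cast
        simp only [ZMod.natCast_val, ZMod.cast_id', id_eq]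
        rw [div_mul_cancel₀ _ hc', sub_self]

instance instFiniteIndexGamma0 : (CongruenceSubgroup.Gamma0 p).FiniteIndex := by
  have : NeZero p := ⟨hp.out.ne_zero⟩
  infer_instance

/-- the equivalence between `P¹(𝔽_p)` and the cosets -/
def repEquiv : Option (Fin p) ≃ (SL(2, ℤ) ⧸ CongruenceSubgroup.Gamma0 p) :=
  Equiv.ofBijective _ (rep_bijective p)

lemma idx_Gamma0 : idx (CongruenceSubgroup.Gamma0 p) = p + 1 := by
  rw [idx, ← Fintype.card_congr (repEquiv p)]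
  simp

variable {p} {k : ℤ} {f g : ℍ → ℂ}

lemma conj_repEquiv (hf : IsMF (CongruenceSubgroup.Gamma0 p) k f) (x : Option (Fin p)) :
    conj (CongruenceSubgroup.Gamma0 p) k f (repEquiv p x) = f ∣[k] (rep p x) := by
  change conj _ k f (((rep p x)⁻¹ : SL(2, ℤ)) : SL(2, ℤ) ⧸ CongruenceSubgroup.Gamma0 p) = _
  rw [conj_mk hf, inv_inv]

lemma tr_Gamma0 (hf : IsMF (CongruenceSubgroup.Gamma0 p) k f) :
    tr (CongruenceSubgroup.Gamma0 p) k f =
      f + ∑ j : Fin p, f ∣[k] (ModularGroup.S * ModularGroup.T ^ (j : ℕ)) := by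
  rw [tr, ← (repEquiv p).sum_comp, Fintype.sum_option]
  simp only [conj_repEquiv hf, rep_none, rep_some, SlashAction.slash_one]

/-- the norm to level one -/
def nrm (p : ℕ) [Fact p.Prime] (k : ℤ) (f : ℍ → ℂ) : ℍ → ℂ :=
  ∏ q, conj (CongruenceSubgroup.Gamma0 p) k f q

lemma nrm_eq (hf : IsMF (CongruenceSubgroup.Gamma0 p) k f) :
    nrm p k f = f * ∏ j : Fin p, f ∣[k] (ModularGroup.S * ModularGroup.T ^ (j : ℕ)) := by
  rw [nrm, ← (repEquiv p).prod_comp, Fintype.prod_option]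
  simp only [conj_repEquiv hf, rep_none, rep_some, SlashAction.slash_one]

lemma isMF_nrm (hf : IsMF (CongruenceSubgroup.Gamma0 p) k f) :
    IsMF ⊤ (((p + 1 : ℕ) : ℤ) * k) (nrm p k f) := by
  have h := isMF_esym hf (idx (CongruenceSubgroup.Gamma0 p))
  have h2 : esym (CongruenceSubgroup.Gamma0 p) k f (idx (CongruenceSubgroup.Gamma0 p)) = nrm p k f := by
    rw [esym, idx, ← Finset.card_univ, Finset.powersetCard_self, Finset.sum_singleton, nrm]
  rw [h2, idx_Gamma0] at h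
  exact h

end

end Fermat.Agent.Eis
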