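import Fermat.Agent.MFLib.IntStruct
import Fermat.Prelude.Def_CuspForm_HeckeLocal
import Fermat.Prelude.Def_CuspForm_HeckeEvalForms
import Fermat.Prelude.Thm_UpperHalfPlane_qCoeff_heckeT
import Fermat.Prelude.Thm_UpperHalfPlane_qCoeff_heckeU

/-!
# Duality between Hecke algebra and cusp forms of weight two

`exists_form_of_linearMap` : every `ℤ`-linear map `Θ` from the (lattice) Hecke algebra to `ℤ` is
of the form `t ↦ a₁(t f)` for a cusp form `f` (with integral coefficients).
-/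

set_option autoImplicit false

open UpperHalfPlane ModularForm CuspForm ModularCurve
open Fermat.Agent.MFLib

namespace Fermat.Agent.Eis

noncomputable section

local notation "Γ₀(" N ")" => CongruenceSubgroup.Gamma0 N

variable (N : ℕ) [NeZero N]

/-- the action of a polynomial in Hecke operators -/
def heckeAct (a : HeckeAlg) : Module.End ℂ (CuspForm Γ₀(N) 2) :=
  (heckeEvalForms N 2 a : Module.End ℂ (CuspForm Γ₀(N) 2))

lemma heckeAct_mul (a b : HeckeAlg) : heckeAct N (a * b) = heckeAct N a * heckeAct N b := by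
  rw [heckeAct, map_mul]; rfl

lemma heckeAct_add (a b : HeckeAlg) : heckeAct N (a + b) = heckeAct N a + heckeAct N b := by
  rw [heckeAct, map_add]; rfl

lemma heckeAct_sub (a b : HeckeAlg) : heckeAct N (a - b) = heckeAct N a - heckeAct N b := by
  rw [heckeAct, map_sub]; rfl

lemma heckeAct_one : heckeAct N 1 = 1 := by rw [heckeAct, map_one]; rfl

lemma heckeAct_natCast (n : ℕ) : heckeAct N (n : HeckeAlg) = (n : Module.End ℂ (CuspForm Γ₀(N) 2)) := by
  rw [heckeAct, map_natCast]; rfl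

lemma coeff_heckeAct_of_not_dvd {ℓ : Nat.Primes} (h : ¬ (ℓ : ℕ) ∣ N) (f : CuspForm Γ₀(N) 2) (n : ℕ) :
    cuspCoeff N 2 n (heckeAct N (heckeGen ℓ) f) = cuspCoeff N 2 (n * ℓ) f +
      if (ℓ : ℕ) ∣ n then ((ℓ : ℕ) : ℂ) * cuspCoeff N 2 (n / ℓ) f else 0 := by
  have h1 : heckeAct N (heckeGen ℓ) = CuspForm.heckeTLin 2 ℓ.2 h := by
    rw [heckeAct, heckeEvalForms_heckeGen_of_not_dvd h]; rfl
  rw [h1]
  have hf := qg_cusp N f
  have h2 := UpperHalfPlane.qCoeff_heckeT hf.per hf.holo hf.bdd 2 (p := ℓ) ℓ.2.ne_zero n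
  rw [ModularForm.coeffHeckeT_apply] at h2
  have h3 : ((ℓ : ℕ) : ℂ) ^ ((2 : ℤ) - 1) = (ℓ : ℕ) := by norm_num
  rw [h3] at h2
  exact h2

lemma coeff_heckeAct_of_dvd {ℓ : Nat.Primes} (h : (ℓ : ℕ) ∣ N) (f : CuspForm Γ₀(N) 2) (n : ℕ) :
    cuspCoeff N 2 n (heckeAct N (heckeGen ℓ) f) = cuspCoeff N 2 (n * ℓ) f := by
  have h1 : heckeAct N (heckeGen ℓ) = CuspForm.heckeULin 2 h := by
    rw [heckeAct, heckeEvalForms_heckeGen_of_dvd h]; rfl
  rw [h1]
  have hf := qg_cusp N f
  exact UpperHalfPlane.qCoeff_heckeU hf.per hf.holo hf.bdd 2 (p := ℓ) ℓ.2.ne_zero n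

/-- polynomials `T_n` in the Hecke operators, together with their value at a system of
eigenvalues -/
theorem exists_heckePoly (lam : Nat.Primes → ℂ) (e : ℕ → ℂ) (h1 : e 1 = 1)
    (hT : ∀ (ℓ : Nat.Primes) (m : ℕ), m ≠ 0 → ¬ (ℓ : ℕ) ∣ N →
      e (m * ℓ) + (if (ℓ : ℕ) ∣ m then ((ℓ : ℕ) : ℂ) * e (m / ℓ) else 0) = lam ℓ * e m)
    (hU : ∀ (ℓ : Nat.Primes) (m : ℕ), m ≠ 0 → (ℓ : ℕ) ∣ N → e (m * ℓ) = lam ℓ * e m)
    (n : ℕ) (hn : n ≠ 0) :
    ∃ a : HeckeAlg, (∀ f : CuspForm Γ₀(N) 2,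
      cuspCoeff N 2 1 (heckeAct N a f) = cuspCoeff N 2 n f) ∧
      MvPolynomial.aeval lam a = e n := by
  induction n using Nat.strong_induction_on with
  | _ n ih =>
  rcases eq_or_ne n 1 with rfl | hn1
  · refine ⟨1, fun f => ?_, ?_⟩
    · rw [heckeAct_one]; rfl
    · rw [map_one, h1]
  · obtain ⟨q, hq, m, rfl⟩ : ∃ q : ℕ, q.Prime ∧ ∃ m, n = q * m := by
      obtain ⟨q, hq, hd⟩ := Nat.exists_prime_and_dvd hn1
      exact ⟨q, hq, hd⟩
    have hm : m ≠ 0 := by rintro rfl; simp at hn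
    have hlt : m < q * m := lt_mul_of_one_lt_left (Nat.pos_of_ne_zero hm) hq.one_lt
    obtain ⟨a, ha, ha'⟩ := ih m hlt hm
    set ℓ : Nat.Primes := ⟨q, hq⟩ with hℓ
    by_cases hN : q ∣ N
    · refine ⟨a * heckeGen ℓ, fun f => ?_, ?_⟩
      · rw [heckeAct_mul, Module.End.mul_apply, ha, coeff_heckeAct_of_dvd N (ℓ := ℓ) hN]
        rw [mul_comm q m]
      · rw [map_mul, ha', aeval_heckeGen, mul_comm q m, mul_comm]
        exact (hU ℓ m hm hN).symm
    · by_cases hqm : q ∣ m
      · obtain ⟨r, rfl⟩ := hqm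
        have hr : r ≠ 0 := by rintro rfl; simp at hm
        have hlt' : r < q * (q * r) :=
          (lt_mul_of_one_lt_left (Nat.pos_of_ne_zero hr) hq.one_lt).trans hlt
        obtain ⟨b, hb, hb'⟩ := ih r hlt' hr
        have hdiv : q * r / q = r := Nat.mul_div_cancel_left _ hq.pos
        refine ⟨a * heckeGen ℓ - (q : HeckeAlg) * b, fun f => ?_, ?_⟩
        · rw [heckeAct_sub, LinearMap.sub_apply, map_sub, heckeAct_mul, Module.End.mul_apply, ha,
            coeff_heckeAct_of_not_dvd N (ℓ := ℓ) hN, heckeAct_mul, Module.End.mul_apply,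
            heckeAct_natCast]
          have e1 : ((q : Module.End ℂ (CuspForm Γ₀(N) 2)) (heckeAct N b f)) =
              (q : ℂ) • (heckeAct N b f) := by
            rw [Module.End.natCast_apply, Nat.cast_smul_eq_nsmul]
          rw [e1, map_smul, hb, if_pos (Dvd.intro _ rfl : (ℓ : ℕ) ∣ q * r)]
          have e2 : q * r / (ℓ : ℕ) = r := hdiv
          rw [e2, smul_eq_mul, mul_comm q (q * r)]
          change _ + (q : ℂ) * _ - _ = _
          rw [add_sub_cancel_right]
        · rw [map_sub, map_mul, map_mul, ha', hb', aeval_heckeGen, map_natCast]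
          have := hT ℓ (q * r) hm hN
          rw [if_pos (Dvd.intro _ rfl : (ℓ : ℕ) ∣ q * r)] at this
          have e2 : q * r / (ℓ : ℕ) = r := hdiv
          rw [e2] at this
          rw [mul_comm (e (q * r)), ← this, mul_comm q (q * r)]
          change _ + (q : ℂ) * _ - _ = _
          rw [add_sub_cancel_right]
      · refine ⟨a * heckeGen ℓ, fun f => ?_, ?_⟩
        · rw [heckeAct_mul, Module.End.mul_apply, ha, coeff_heckeAct_of_not_dvd N (ℓ := ℓ) hN,
            if_neg hqm, add_zero]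
          rw [mul_comm q m]
        · rw [map_mul, ha', aeval_heckeGen, mul_comm q m, mul_comm]
          have := hT ℓ m hm hN
          rw [if_neg hqm, add_zero] at this
          exact this.symm

lemma exists_heckePoly' (n : ℕ) (hn : n ≠ 0) : ∃ a : HeckeAlg, ∀ f : CuspForm Γ₀(N) 2,
      cuspCoeff N 2 1 (heckeAct N a f) = cuspCoeff N 2 n f := by
  induction n using Nat.strong_induction_on with
  | _ n ih =>
  rcases eq_or_ne n 1 with rfl | hn1
  · refine ⟨1, fun f => ?_⟩
    rw [heckeAct_one]; rfl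
  · obtain ⟨q, hq, m, rfl⟩ : ∃ q : ℕ, q.Prime ∧ ∃ m, n = q * m := by
      obtain ⟨q, hq, hd⟩ := Nat.exists_prime_and_dvd hn1
      exact ⟨q, hq, hd⟩
    have hm : m ≠ 0 := by rintro rfl; simp at hn
    have hlt : m < q * m := lt_mul_of_one_lt_left (Nat.pos_of_ne_zero hm) hq.one_lt
    obtain ⟨a, ha⟩ := ih m hlt hm
    set ℓ : Nat.Primes := ⟨q, hq⟩ with hℓ
    by_cases hN : q ∣ N
    · refine ⟨a * heckeGen ℓ, fun f => ?_⟩
      rw [heckeAct_mul, Module.End.mul_apply, ha, coeff_heckeAct_of_dvd N (ℓ := ℓ) hN]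
      rw [mul_comm q m]
    · by_cases hqm : q ∣ m
      · obtain ⟨r, rfl⟩ := hqm
        have hr : r ≠ 0 := by rintro rfl; simp at hm
        have hlt' : r < q * (q * r) :=
          (lt_mul_of_one_lt_left (Nat.pos_of_ne_zero hr) hq.one_lt).trans hlt
        obtain ⟨b, hb⟩ := ih r hlt' hr
        have hdiv : q * r / q = r := Nat.mul_div_cancel_left _ hq.pos
        refine ⟨a * heckeGen ℓ - (q : HeckeAlg) * b, fun f => ?_⟩
        rw [heckeAct_sub, LinearMap.sub_apply, map_sub, heckeAct_mul, Module.End.mul_apply, ha,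
          coeff_heckeAct_of_not_dvd N (ℓ := ℓ) hN, heckeAct_mul, Module.End.mul_apply,
          heckeAct_natCast]
        have e1 : ((q : Module.End ℂ (CuspForm Γ₀(N) 2)) (heckeAct N b f)) =
            (q : ℂ) • (heckeAct N b f) := by
          rw [Module.End.natCast_apply, Nat.cast_smul_eq_nsmul]
        rw [e1, map_smul, hb, if_pos (Dvd.intro _ rfl : (ℓ : ℕ) ∣ q * r)]
        have e2 : q * r / (ℓ : ℕ) = r := hdiv
        rw [e2, smul_eq_mul, mul_comm q (q * r)]
        change _ + (q : ℂ) * _ - _ = _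
        rw [add_sub_cancel_right]
      · refine ⟨a * heckeGen ℓ, fun f => ?_⟩
        rw [heckeAct_mul, Module.End.mul_apply, ha, coeff_heckeAct_of_not_dvd N (ℓ := ℓ) hN,
          if_neg hqm, add_zero]
        rw [mul_comm q m]

/-! ### integral forms -/

lemma mem_intLattice_iff (f : CuspForm Γ₀(N) 2) :
    f ∈ intLattice N 2 ↔ ∀ n, ∃ m : ℤ, cuspCoeff N 2 n f = m := by
  constructor
  · intro hf
    induction hf using Submodule.span_induction with
    | mem x hx => exact hx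
    | zero => intro n; exact ⟨0, by simp⟩
    | add x y _ _ hx hy =>
      intro n
      obtain ⟨a, ha⟩ := hx n
      obtain ⟨b, hb⟩ := hy n
      exact ⟨a + b, by rw [map_add, ha, hb]; push_cast; rfl⟩
    | smul c x _ hx =>
      intro n
      obtain ⟨a, ha⟩ := hx n
      refine ⟨c * a, ?_⟩
      rw [map_zsmul, ha]
      push_cast
      simp
  · intro h
    exact Submodule.subset_span h

lemma cuspCoeff_zero (f : CuspForm Γ₀(N) 2) : cuspCoeff N 2 0 f = 0 := by
  have h1 : (1 : ℝ) ∈ (CongruenceSubgroup.Gamma0 N : Subgroup (GL (Fin 2) ℝ)).strictPeriods := by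
    simp [CongruenceSubgroup.strictPeriods_Gamma0]
  exact CuspFormClass.qExpansion_coeff_zero f one_pos h1

lemma eq_zero_of_cuspCoeff (f : CuspForm Γ₀(N) 2) (h : ∀ n, n ≠ 0 → cuspCoeff N 2 n f = 0) :
    f = 0 := by
  have h1 : (f : ℍ → ℂ) = 0 := by
    rw [← (qg_cusp N f).qe_eq_zero]
    ext n
    rcases eq_or_ne n 0 with rfl | hn
    · exact cuspCoeff_zero N f
    · exact h n hn
  ext τ
  exact congrFun h1 τ

/-- the lattice Hecke algebra -/
abbrev TL := ↥(heckeLatticeAlgebra N ∅)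

/-- the evaluation of Hecke polynomials in the lattice Hecke algebra -/
abbrev evL : HeckeAlg →+* TL N := (latticeRestrictHom N ∅).toRingHom.comp (heckeEvalForms N 2)

lemma exists_heckeAct_eq {t : Module.End ℂ (CuspForm Γ₀(N) 2)} (ht : t ∈ heckeAlgebra N 2 ∅) :
    ∃ a : HeckeAlg, heckeAct N a = t := by
  rw [heckeAlgebra] at ht
  induction ht using Algebra.adjoin_induction with
  | mem x hx =>
    rcases hx with ⟨ℓ, hℓ, hℓN, -, rfl⟩ | ⟨q, hqN, hq, -, rfl⟩
    · refine ⟨heckeGen ⟨ℓ, hℓ⟩, ?_⟩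
      rw [heckeAct, heckeEvalForms_heckeGen_of_not_dvd (ℓ := ⟨ℓ, hℓ⟩) hℓN]; rfl
    · refine ⟨heckeGen ⟨q, hq⟩, ?_⟩
      rw [heckeAct, heckeEvalForms_heckeGen_of_dvd (q := ⟨q, hq⟩) hqN]; rfl
  | algebraMap r =>
    refine ⟨MvPolynomial.C r, ?_⟩
    rw [heckeAct, heckeEvalForms_C]; rfl
  | add x y _ _ hx hy =>
    obtain ⟨a, rfl⟩ := hx
    obtain ⟨b, rfl⟩ := hy
    exact ⟨a + b, heckeAct_add N a b⟩
  | mul x y _ _ hx hy =>
    obtain ⟨a, rfl⟩ := hx
    obtain ⟨b, rfl⟩ := hy
    exact ⟨a * b, heckeAct_mul N a b⟩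

lemma heckeEvalForms_surjective : Function.Surjective (heckeEvalForms N 2) := by
  rintro ⟨t, ht⟩
  obtain ⟨a, ha⟩ := exists_heckeAct_eq N ht
  exact ⟨a, Subtype.ext ha⟩

lemma evL_surjective : Function.Surjective (evL N) :=
  (latticeRestrictHom_surjective N ∅).comp (heckeEvalForms_surjective N)

lemma coe_evL_apply (a : HeckeAlg) (f : intLattice N 2) :
    ((((evL N a : TL N) : Module.End ℤ (intLattice N 2)) f : intLattice N 2) :
      CuspForm Γ₀(N) 2) = heckeAct N a f := rfl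

lemma ker_evL {a : HeckeAlg} : evL N a = 0 ↔ heckeAct N a = 0 := by
  constructor
  · intro h
    have h1 : heckeEvalForms N 2 a = 0 := by
      apply (latticeRestrictHom_bijective N ∅ (hasIntegralStructure N 2)).1
      rw [map_zero]
      exact h
    rw [heckeAct, h1]; rfl
  · intro h
    have h1 : heckeEvalForms N 2 a = 0 := Subtype.ext h
    change latticeRestrictHom N ∅ (heckeEvalForms N 2 a) = 0
    rw [h1, map_zero]

omit [NeZero N] in
lemma exists_ratLin {c : ℂ} (hc : c ≠ 0) : ∃ lam : ℂ →ₗ[ℚ] ℚ, lam c ≠ 0 := by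
  by_contra hcon
  push Not at hcon
  exact hc ((Module.forall_dual_apply_eq_zero_iff ℚ c).1 hcon)

/-- non-degeneracy of the pairing on the Hecke side, integrally -/
lemma exists_coeff_ne (t : TL N) (ht : t ≠ 0) :
    ∃ f : intLattice N 2, cuspCoeff N 2 1 ((t : Module.End ℤ (intLattice N 2)) f) ≠ 0 := by
  by_contra hcon
  push Not at hcon
  apply ht
  apply Subtype.ext
  apply LinearMap.ext
  intro f
  apply Subtype.ext
  change (((t : Module.End ℤ (intLattice N 2)) f : intLattice N 2) : CuspForm Γ₀(N) 2) = 0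
  apply eq_zero_of_cuspCoeff
  intro n hn
  obtain ⟨a, ha⟩ := exists_heckePoly' N n hn
  rw [← ha]
  have h1 : heckeAct N a (((t : Module.End ℤ (intLattice N 2)) f : intLattice N 2) :
      CuspForm Γ₀(N) 2) = ((((evL N a * t : TL N) : Module.End ℤ (intLattice N 2)) f :
      intLattice N 2) : CuspForm Γ₀(N) 2) := rfl
  rw [h1, mul_comm]
  exact hcon (((evL N a : TL N) : Module.End ℤ (intLattice N 2)) f)

lemma exists_int_coeff (a : HeckeAlg) (f : intLattice N 2) (n : ℕ) :
    ∃ m : ℤ, cuspCoeff N 2 n (heckeAct N a f) = m := by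
  rw [← coe_evL_apply]
  exact (mem_intLattice_iff N _).1 (Subtype.mem _) n

lemma cuspCoeff_heckeAct_sum {ι : Type*} (s : Finset ι) (w : ι → ℤ) (a : ι → HeckeAlg)
    (f : CuspForm Γ₀(N) 2) (n : ℕ) :
    cuspCoeff N 2 n (heckeAct N (∑ i ∈ s, (w i : HeckeAlg) * a i) f) =
      ∑ i ∈ s, (w i : ℂ) * cuspCoeff N 2 n (heckeAct N (a i) f) := by
  classical
  induction s using Finset.induction_on with
  | empty =>
    rw [Finset.sum_empty, Finset.sum_empty, heckeAct, map_zero]
    exact map_zero _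
  | insert j s hj ih =>
    rw [Finset.sum_insert hj, Finset.sum_insert hj, heckeAct_add, LinearMap.add_apply, map_add, ih,
      heckeAct_mul, Module.End.mul_apply]
    congr 1
    have h1 : heckeAct N ((w j : ℤ) : HeckeAlg) =
        ((w j : ℤ) : Module.End ℂ (CuspForm Γ₀(N) 2)) := by
      rw [heckeAct, map_intCast]; rfl
    rw [h1, Module.End.intCast_apply, map_zsmul, zsmul_eq_mul]

lemma evL_sum {ι : Type*} (s : Finset ι) (w : ι → ℤ) (a : ι → HeckeAlg) :
    evL N (∑ i ∈ s, (w i : HeckeAlg) * a i) = ∑ i ∈ s, w i • evL N (a i) := by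
  rw [map_sum]
  refine Finset.sum_congr rfl fun i _ => ?_
  rw [map_mul, map_intCast, zsmul_eq_mul]

/-- duality: every linear form on the Hecke algebra is given by a cusp form -/
theorem exists_form_of_linearMap (Θ : TL N →ₗ[ℤ] ℤ) :
    ∃ f : CuspForm Γ₀(N) 2, ∀ a : HeckeAlg,
      cuspCoeff N 2 1 (heckeAct N a f) = Θ (evL N a) := by
  classical
  set b := Module.Free.chooseBasis ℤ (TL N) with hb
  choose a ha using fun i => evL_surjective N (b i)
  set β : Module.Free.ChooseBasisIndex ℤ (TL N) → (CuspForm Γ₀(N) 2 →ₗ[ℂ] ℂ) :=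
    fun i => (cuspCoeff N 2 1) ∘ₗ heckeAct N (a i) with hβ
  set B : CuspForm Γ₀(N) 2 →ₗ[ℂ] (Module.Free.ChooseBasisIndex ℤ (TL N) → ℂ) :=
    LinearMap.pi β with hB
  have hsurj : LinearMap.range B = ⊤ := by
    by_contra hne
    obtain ⟨g, hg0, hg⟩ := Submodule.exists_le_ker_of_lt_top _ (lt_top_iff_ne_top.2 hne)
    set c : Module.Free.ChooseBasisIndex ℤ (TL N) → ℂ := fun i => g (Pi.single i 1) with hc
    have hgx : ∀ x, g x = ∑ i, x i * c i := by
      intro x
      rw [LinearMap.pi_apply_eq_sum_univ g x]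
      refine Finset.sum_congr rfl fun i _ => ?_
      rw [smul_eq_mul, hc]
      congr 3
      ext j
      rw [Pi.single_apply]
      simp [eq_comm]
    have hsum : ∀ f, ∑ i, β i f * c i = 0 := by
      intro f
      have : g (B f) = 0 := LinearMap.mem_ker.1 (hg (LinearMap.mem_range_self B f))
      rw [hgx] at this
      exact this
    obtain ⟨j, hj⟩ : ∃ j, c j ≠ 0 := by
      by_contra hcon
      push Not at hcon
      apply hg0
      ext x
      simp [hc] at hcon ⊢
      exact hcon x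
    obtain ⟨lam, hlam⟩ := exists_ratLin hj
    obtain ⟨D, hD⟩ := IsLocalization.exist_integer_multiples_of_finset (nonZeroDivisors ℤ)
      (Finset.univ.image fun i => lam (c i))
    have hD' : ∀ i, ∃ w : ℤ, (w : ℚ) = (D : ℤ) * lam (c i) := by
      intro i
      obtain ⟨w, hw⟩ := hD (lam (c i)) (Finset.mem_image_of_mem _ (Finset.mem_univ i))
      refine ⟨w, ?_⟩
      rw [zsmul_eq_mul] at hw
      exact hw
    choose w hw using hD'
    have hD0 : ((D : ℤ) : ℚ) ≠ 0 := by
      exact_mod_cast nonZeroDivisors.ne_zero D.2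
    set t : TL N := ∑ i, w i • b i with ht
    have ht0 : t ≠ 0 := by
      intro h0
      have h1 : b.repr t j = w j := by
        rw [ht, b.repr_sum_self]
      rw [h0, map_zero] at h1
      have h2 := hw j
      rw [← h1] at h2
      exact mul_ne_zero hD0 hlam (h2.symm.trans (by simp))
    obtain ⟨f, hf⟩ := exists_coeff_ne N t ht0
    apply hf
    choose z hz using fun i => exists_int_coeff N (a i) f 1
    have h1 : cuspCoeff N 2 1 ((t : Module.End ℤ (intLattice N 2)) f) = ∑ i, (w i : ℂ) * z i := by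
      have h2 : evL N (∑ i, ((w i : ℤ) : HeckeAlg) * a i) = t := by
        rw [evL_sum, ht]
        exact Finset.sum_congr rfl fun i _ => by rw [ha]
      rw [← h2, coe_evL_apply, cuspCoeff_heckeAct_sum]
      exact Finset.sum_congr rfl fun i _ => by rw [hz]
    rw [h1]
    have h3 := hsum f
    have h4 : ∑ i, (z i : ℚ) * lam (c i) = 0 := by
      have := congrArg lam h3
      rw [map_zero, map_sum] at this
      rw [← this]
      refine Finset.sum_congr rfl fun i _ => ?_
      have h5 : β i f = z i := hz i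
      rw [h5]
      have h6 : ((z i : ℤ) : ℂ) * c i = (z i : ℤ) • c i := by rw [zsmul_eq_mul]
      rw [h6, map_zsmul, zsmul_eq_mul]
    have h5 : (∑ i, (w i : ℚ) * z i) = 0 := by
      have : ∑ i, (w i : ℚ) * z i = (D : ℤ) * ∑ i, (z i : ℚ) * lam (c i) := by
        rw [Finset.mul_sum]
        refine Finset.sum_congr rfl fun i _ => ?_
        rw [hw]; ring
      rw [this, h4, mul_zero]
    exact_mod_cast h5
  obtain ⟨f, hf⟩ := LinearMap.range_eq_top.1 hsurj (fun i => (Θ (b i) : ℂ))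
  refine ⟨f, fun x => ?_⟩
  have hfi : ∀ i, cuspCoeff N 2 1 (heckeAct N (a i) f) = Θ (b i) := fun i => congrFun hf i
  set w := fun i => b.repr (evL N x) i with hw
  have h2 : evL N (∑ i, ((w i : ℤ) : HeckeAlg) * a i) = evL N x := by
    rw [evL_sum]
    conv_rhs => rw [← b.sum_repr (evL N x)]
    exact Finset.sum_congr rfl fun i _ => by rw [ha]
  have h3 : heckeAct N (x - ∑ i, ((w i : ℤ) : HeckeAlg) * a i) = 0 := by
    rw [← ker_evL, map_sub, h2, sub_self]
  have h4 : heckeAct N x f = heckeAct N (∑ i, ((w i : ℤ) : HeckeAlg) * a i) f := by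
    rw [heckeAct_sub, sub_eq_zero] at h3
    rw [h3]
  rw [h4, cuspCoeff_heckeAct_sum]
  have h5 : Θ (evL N x) = ∑ i, w i * Θ (b i) := by
    conv_lhs => rw [← b.sum_repr (evL N x)]
    rw [map_sum]
    exact Finset.sum_congr rfl fun i _ => by rw [map_zsmul, smul_eq_mul]
  rw [h5]
  push_cast
  exact Finset.sum_congr rfl fun i _ => by rw [hfi]

end

end Fermat.Agent.Eis
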