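import Fermat.Agent.Eis.SeriesHecke
import Fermat.Agent.Eis.Duality
import Fermat.Agent.LowLevel.CuspZero
import Fermat.Prelude.Def_ModularCurve_ModularUnit

set_option autoImplicit false

open UpperHalfPlane ModularForm CuspForm ModularCurve
open Fermat.Agent.MFLib

namespace Fermat.Agent.Eis

noncomputable section

variable {p : ℕ} [hp : Fact p.Prime]

/-- evaluation at the Eisenstein system -/
abbrev psi (p : ℕ) : HeckeAlg →+* ℤ := (MvPolynomial.aeval (R := ℤ) (eisensteinSystem p)).toRingHom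

omit hp in
lemma aeval_lam (a : HeckeAlg) :
    MvPolynomial.aeval (fun ℓ => ((eisensteinSystem p ℓ : ℤ) : ℂ)) a = ((psi p a : ℤ) : ℂ) := by
  exact MvPolynomial.aeval_algebraMap_apply (A := ℤ) (B := ℂ) (eisensteinSystem p) a

lemma eisS_hecke (ℓ : Nat.Primes) (m : ℕ) (h : ¬ (ℓ : ℕ) ∣ p) :
    (eisS p).coeff (m * ℓ) + (if (ℓ : ℕ) ∣ m then ((ℓ : ℕ) : ℂ) * (eisS p).coeff (m / ℓ) else 0) =
      ((eisensteinSystem p ℓ : ℤ) : ℂ) * (eisS p).coeff m := by
  have hne : (ℓ : ℕ) ≠ p := fun h' => h (h' ▸ dvd_rfl)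
  have h1 := congrArg (PowerSeries.coeff m) (hk_eisS hp.out ℓ.2 hne)
  rw [coeff_hk, PowerSeries.coeff_smul, smul_eq_mul] at h1
  rw [h1, eisensteinSystem_of_not_dvd h]
  push_cast
  rfl

lemma eisS_hecke' (ℓ : Nat.Primes) (m : ℕ) (h : (ℓ : ℕ) ∣ p) :
    (eisS p).coeff (m * ℓ) = ((eisensteinSystem p ℓ : ℤ) : ℂ) * (eisS p).coeff m := by
  have he : (ℓ : ℕ) = p := (Nat.prime_dvd_prime_iff_eq ℓ.2 hp.out).1 h
  have h1 := congrArg (PowerSeries.coeff m) (uP_eisS hp.out)
  rw [coeff_uP] at h1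
  rw [eisensteinSystem_of_dvd h, he, h1]
  push_cast
  rw [one_mul]

lemma dvd_of_le {M : ℕ} (h5 : 5 ≤ p) (hM : 0 < M)
    (h : ∀ a : HeckeAlg, evL p a = 0 → (M : ℤ) ∣ psi p a) : M ∣ eisensteinNumerator p := by
  classical
  have hM0 : (M : ℂ) ≠ 0 := by exact_mod_cast hM.ne'
  have : NeZero M := ⟨hM.ne'⟩
  -- the ring homomorphism to `ZMod M`
  set ψM : HeckeAlg →+* ZMod M := (Int.castRingHom (ZMod M)).comp (psi p) with hψM
  have hker : RingHom.ker (evL p) ≤ RingHom.ker ψM := by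
    intro a ha
    rw [RingHom.mem_ker] at ha ⊢
    have := h a ha
    rw [hψM, RingHom.comp_apply, eq_intCast, ZMod.intCast_zmod_eq_zero_iff_dvd]
    exact this
  set θ : TL p →+* ZMod M := (evL p).liftOfSurjective (evL_surjective p) ⟨ψM, hker⟩ with hθ
  have hθa : ∀ a, θ (evL p a) = ψM a := fun a => RingHom.liftOfRightInverse_comp_apply _ _ _ _ a
  obtain ⟨Θ, hΘ⟩ := Module.projective_lifting_property
    (Int.castAddHom (ZMod M)).toIntLinearMap (θ : TL p →+ ZMod M).toIntLinearMap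
    (ZMod.intCast_surjective)
  have hΘ' : ∀ t, ((Θ t : ℤ) : ZMod M) = θ t := fun t => LinearMap.congr_fun hΘ t
  obtain ⟨f, hf⟩ := exists_form_of_linearMap p Θ
  have hfM : IsMF (CongruenceSubgroup.Gamma0 p) 2 (f : ℍ → ℂ) := IsMF.of_class f
  have hH : IsMF (CongruenceSubgroup.Gamma0 p) 2 ((M : ℂ)⁻¹ • (eis p - (f : ℍ → ℂ))) :=
    (isMF_eis.sub hfM).smul _
  have hcoeff : ∀ n, (qe ((M : ℂ)⁻¹ • (eis p - (f : ℍ → ℂ)))).coeff n =
      (M : ℂ)⁻¹ * ((eisS p).coeff n - cuspCoeff p 2 n f) := by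
    intro n
    rw [((isMF_eis.qg T_mem).sub (hfM.qg T_mem)).qe_smul,
      (isMF_eis.qg T_mem).qe_sub (hfM.qg T_mem), qe_eis, PowerSeries.coeff_smul, map_sub,
      smul_eq_mul]
    rfl
  have hint : ∀ n, n ≠ 0 → ∃ m : ℤ, (qe ((M : ℂ)⁻¹ • (eis p - (f : ℍ → ℂ)))).coeff n = m := by
    intro n hn
    obtain ⟨a, ha1, ha2⟩ := exists_heckePoly p (fun ℓ => ((eisensteinSystem p ℓ : ℤ) : ℂ))
      (fun n => (eisS p).coeff n) (coeff_one_eisS hp.out)
      (fun ℓ m _ h => eisS_hecke ℓ m h) (fun ℓ m _ h => eisS_hecke' ℓ m h) n hn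
    rw [aeval_lam] at ha2
    have h1 := ha1 f
    rw [hf] at h1
    have h2 : ((psi p a - Θ (evL p a) : ℤ) : ZMod M) = 0 := by
      push_cast
      rw [hΘ', hθa, hψM, RingHom.comp_apply, eq_intCast, sub_self]
    rw [ZMod.intCast_zmod_eq_zero_iff_dvd] at h2
    obtain ⟨z, hz⟩ := h2
    refine ⟨z, ?_⟩
    rw [hcoeff, ← h1, ← ha2]
    have h3 := congrArg (fun z : ℤ => (z : ℂ)) hz
    push_cast at h3
    rw [h3]
    field_simp
  obtain ⟨z, hz⟩ := const_dvd hH hint h5
  rw [hcoeff, coeff_zero_eisS, cuspCoeff_zero, sub_zero] at hz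
  have h1 : ((p : ℂ) - 1) = (Nat.gcd (p - 1) 12 : ℕ) * z * M := by
    field_simp at hz
    linear_combination hz
  have hg := Nat.gcd_dvd_left (p - 1) 12
  have h2 : ((eisensteinNumerator p : ℤ)) * (Nat.gcd (p - 1) 12 : ℕ) = (p : ℤ) - 1 := by
    have h3 : eisensteinNumerator p * Nat.gcd (p - 1) 12 = p - 1 := Nat.div_mul_cancel hg
    have h4 := congrArg (fun z : ℕ => (z : ℤ)) h3
    push_cast [Nat.cast_sub hp.out.one_lt.le] at h4
    exact h4
  have h3 : (p : ℤ) - 1 = (Nat.gcd (p - 1) 12 : ℕ) * z * M := by exact_mod_cast h1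
  have hg0 : ((Nat.gcd (p - 1) 12 : ℕ) : ℤ) ≠ 0 := by
    have : 0 < Nat.gcd (p - 1) 12 := Nat.gcd_pos_of_pos_right _ (by norm_num)
    exact_mod_cast this.ne'
  have h4 : (eisensteinNumerator p : ℤ) = z * M := by
    apply mul_left_cancel₀ hg0
    rw [← mul_assoc, ← h3, ← h2]
    ring
  have h5 : (M : ℤ) ∣ eisensteinNumerator p := ⟨z, by rw [h4]; ring⟩
  exact_mod_cast h5

omit hp in
lemma psi_surjective : Function.Surjective (psi p) := fun n => ⟨(n : HeckeAlg), by simp⟩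

/-- the numerator lies in the Eisenstein ideal -/
theorem natCast_mem (h5 : 5 ≤ p) :
    ((eisensteinNumerator p : ℕ) : TL p) ∈ Ideal.map (evL p) (eisensteinIdeal p) := by
  have hn0 : 0 < eisensteinNumerator p := by
    have h1 : 0 < p - 1 := by omega
    exact Nat.div_pos (Nat.le_of_dvd h1 (Nat.gcd_dvd_left _ _))
      (Nat.gcd_pos_of_pos_right _ (by norm_num))
  set K : Ideal ℤ := Ideal.map (psi p) (RingHom.ker (evL p)) with hK
  obtain ⟨m, hm⟩ : ∃ m : ℤ, K = Ideal.span {m} := (IsPrincipalIdealRing.principal K).principal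
  have hmem : ∀ a : HeckeAlg, evL p a = 0 → m ∣ psi p a := by
    intro a ha
    have : psi p a ∈ K := Ideal.mem_map_of_mem _ (RingHom.mem_ker.2 ha)
    rwa [hm, Ideal.mem_span_singleton] at this
  have hmn : m ∣ (eisensteinNumerator p : ℤ) := by
    rcases eq_or_ne m 0 with h0 | h0
    · exfalso
      have h1 := dvd_of_le (M := eisensteinNumerator p + 1) h5 (Nat.succ_pos _) (fun a ha => by
        have := hmem a ha
        rw [h0, zero_dvd_iff] at this
        rw [this]; exact dvd_zero _)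
      have := Nat.le_of_dvd hn0 h1
      omega
    · have h1 := dvd_of_le (M := m.natAbs) h5 (Int.natAbs_pos.2 h0) (fun a ha => by
        rw [Int.natAbs_dvd]; exact hmem a ha)
      rw [← Int.natAbs_dvd]
      exact_mod_cast h1
  have hnK : (eisensteinNumerator p : ℤ) ∈ K := by
    rw [hm, Ideal.mem_span_singleton]; exact hmn
  rw [hK, Ideal.mem_map_iff_of_surjective _ psi_surjective] at hnK
  obtain ⟨a, ha, hpa⟩ := hnK
  rw [RingHom.mem_ker] at ha
  have h1 : ((eisensteinNumerator p : ℕ) : TL p) =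
      evL p (((eisensteinNumerator p : ℕ) : HeckeAlg) - a) := by
    rw [map_sub, ha, sub_zero, map_natCast]
  rw [h1]
  apply Ideal.mem_map_of_mem
  rw [eisensteinIdeal, mem_eigenIdeal_iff]
  change psi p _ = 0
  rw [map_sub, hpa, map_natCast]
  simp

/-- every element of the Hecke algebra is congruent to an integer modulo the Eisenstein ideal -/
theorem exists_int_sub_mem (t : TL p) :
    ∃ k : ℤ, t - (k : TL p) ∈ Ideal.map (evL p) (eisensteinIdeal p) := by
  obtain ⟨a, rfl⟩ := evL_surjective p t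
  refine ⟨psi p a, ?_⟩
  have h1 : evL p a - ((psi p a : ℤ) : TL p) = evL p (a - ((psi p a : ℤ) : HeckeAlg)) := by
    rw [map_sub, map_intCast]
  rw [h1]
  apply Ideal.mem_map_of_mem
  rw [eisensteinIdeal, mem_eigenIdeal_iff]
  change psi p _ = 0
  rw [map_sub, map_intCast]
  simp

/-- the cardinality of the quotient, given the lower bound -/
theorem natCard_quotient {R : Type*} [CommRing R] (I : Ideal R) (n : ℕ)
    (h1 : ∀ t : R, ∃ k : ℤ, t - (k : R) ∈ I) (h2 : (n : R) ∈ I)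
    (h3 : ∀ k : ℤ, (k : R) ∈ I → (n : ℤ) ∣ k) : Nat.card (R ⧸ I) = n := by
  set φ : ℤ →+* R ⧸ I := Int.castRingHom _ with hφ
  have hsurj : Function.Surjective φ := by
    intro x
    obtain ⟨t, rfl⟩ := Ideal.Quotient.mk_surjective x
    obtain ⟨k, hk⟩ := h1 t
    refine ⟨k, ?_⟩
    rw [hφ, eq_intCast, ← map_intCast (Ideal.Quotient.mk I), eq_comm, Ideal.Quotient.mk_eq_mk_iff_sub_mem]
    exact hk
  have hker : RingHom.ker φ = Ideal.span {(n : ℤ)} := by
    ext k
    rw [RingHom.mem_ker, hφ, eq_intCast, ← map_intCast (Ideal.Quotient.mk I),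
      Ideal.Quotient.eq_zero_iff_mem, Ideal.mem_span_singleton]
    constructor
    · exact h3 k
    · rintro ⟨z, rfl⟩
      push_cast
      exact I.mul_mem_right _ h2
  have e1 := (RingHom.quotientKerEquivOfSurjective hsurj).toEquiv
  rw [← Nat.card_congr e1, hker, Nat.card_congr (Int.quotientSpanNatEquivZMod n).toEquiv,
    Nat.card_zmod]

lemma cusp_eq_zero_of_lt (h5 : p < 5) (f : CuspForm (CongruenceSubgroup.Gamma0 p) 2) : f = 0 := by
  refine Fermat.Agent.LowLevel.cuspForm_eq_zero_of_index_lt p 2 ?_ f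
  have h1 : (CongruenceSubgroup.Gamma0 p).index = p + 1 := by
    have := idx_Gamma0 (p := p)
    rwa [idx, ← Nat.card_eq_fintype_card] at this
  rw [h1]
  omega

lemma subsingleton_TL (h5 : p < 5) : Subsingleton (TL p) := by
  refine ⟨fun s t => Subtype.ext (LinearMap.ext fun f => Subtype.ext ?_)⟩
  rw [cusp_eq_zero_of_lt h5
    (((s : Module.End ℤ (intLattice p 2)) f : intLattice p 2) : CuspForm (CongruenceSubgroup.Gamma0 p) 2),
    cusp_eq_zero_of_lt h5
    (((t : Module.End ℤ (intLattice p 2)) f : intLattice p 2) : CuspForm (CongruenceSubgroup.Gamma0 p) 2)]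

theorem natCast_mem' :
    ((eisensteinNumerator p : ℕ) : TL p) ∈ Ideal.map (evL p) (eisensteinIdeal p) := by
  rcases Nat.lt_or_ge p 5 with h | h
  · have := subsingleton_TL h
    rw [Subsingleton.elim ((eisensteinNumerator p : ℕ) : TL p) 0]
    exact Ideal.zero_mem _
  · exact natCast_mem h

/-- The final count, given the lower bound `(L)`. -/
theorem natCard_eq_of_lower_bound
    (hL : ∀ k : ℤ, (k : TL p) ∈ Ideal.map (evL p) (eisensteinIdeal p) →
      (eisensteinNumerator p : ℤ) ∣ k) :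
    Nat.card (↥(heckeLatticeAlgebra p ∅) ⧸
        Ideal.map ((latticeRestrictHom p ∅).toRingHom.comp (heckeEvalForms p 2))
          (eisensteinIdeal p)) =
      eisensteinNumerator p :=
  natCard_quotient _ _ exists_int_sub_mem natCast_mem' hL

end

end Fermat.Agent.Eis
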