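import Fermat.Agent.Eis.Cosets
import Fermat.Prelude.Def_ModularForm_HeckeOperatorForms
import Fermat.Prelude.Thm_UpperHalfPlane_qCoeff_heckeU

set_option autoImplicit false

open UpperHalfPlane ModularForm Complex Filter Topology Matrix.SpecialLinearGroup
open scoped MatrixGroups Manifold Real
open Fermat.Agent.MFLib

namespace Fermat.Agent.Eis

noncomputable section

section N

variable (p : ℕ) [NeZero p]

/-- `z ↦ p z` on the upper half plane -/
def pz (z : ℍ) : ℍ := matN p • z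

lemma det_matN : ((matN p).det : ℝ) = p := by
  rw [Matrix.GeneralLinearGroup.val_det_apply, Matrix.det_fin_two]
  simp only [matN_apply]
  simp

lemma p_pos : (0 : ℝ) < p := by exact_mod_cast Nat.pos_of_ne_zero (NeZero.ne p)

lemma coe_pz (z : ℍ) : ((pz p z : ℍ) : ℂ) = p * z := by
  rw [pz, UpperHalfPlane.coe_smul_of_det_pos (by rw [det_matN]; exact p_pos p)]
  simp only [UpperHalfPlane.num, UpperHalfPlane.denom, matN_apply]
  simp

lemma slash_matN_apply (k : ℤ) (f : ℍ → ℂ) (z : ℍ) :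
    (f ∣[k] matN p) z = (p : ℂ) ^ (k - 1) * f (pz p z) := by
  have hσ : UpperHalfPlane.σ (matN p) = ContinuousAlgEquiv.refl ℝ ℂ := by
    rw [UpperHalfPlane.σ, if_pos (by rw [det_matN]; exact p_pos p)]
  have hden : denom (matN p) z = 1 := by
    simp only [denom, matN_apply]; simp
  rw [slash_apply, hσ, det_matN, hden]
  simp only [ContinuousAlgEquiv.refl_apply, Nat.abs_cast, Complex.ofReal_natCast, one_zpow, mul_one,
    pz]
  rw [mul_comm]

/-- the Fricke transform `f ↦ (f | S)(p z)` -/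
def fr (k : ℤ) (f : ℍ → ℂ) : ℍ → ℂ := fun z => (f ∣[k] ModularGroup.S) (pz p z)

lemma fr_eq (k : ℤ) (f : ℍ → ℂ) :
    fr p k f = ((p : ℂ) ^ (k - 1))⁻¹ • ((f ∣[k] ModularGroup.S) ∣[k] matN p) := by
  funext z
  have hp : (p : ℂ) ≠ 0 := by exact_mod_cast NeZero.ne p
  rw [Pi.smul_apply, slash_matN_apply, smul_eq_mul, ← mul_assoc,
    inv_mul_cancel₀ (zpow_ne_zero _ hp), one_mul]
  rfl

lemma fr_smul (k : ℤ) (c : ℂ) (f : ℍ → ℂ) : fr p k (c • f) = c • fr p k f := by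
  funext z
  simp only [fr, Pi.smul_apply]
  rw [SL_smul_slash]
  rfl

lemma fr_add (k : ℤ) (f g : ℍ → ℂ) : fr p k (f + g) = fr p k f + fr p k g := by
  funext z
  simp only [fr, Pi.add_apply]
  rw [SlashAction.add_slash]
  rfl

lemma fr_mul (k l : ℤ) (f g : ℍ → ℂ) : fr p (k + l) (f * g) = fr p k f * fr p l g := by
  funext z
  simp only [fr, Pi.mul_apply]
  rw [mul_slash_SL2]
  rfl

lemma fr_pow (k : ℤ) (f : ℍ → ℂ) (n : ℕ) : fr p (n * k) (f ^ n) = fr p k f ^ n := by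
  funext z
  simp only [fr, Pi.pow_apply]
  rw [pow_slash_SL]
  rfl

lemma slash_smul_of_pos {g : GL (Fin 2) ℝ} (hg : 0 < (g.det : ℝ)) (k : ℤ) (c : ℂ) (f : ℍ → ℂ) :
    (c • f) ∣[k] g = c • (f ∣[k] g) := by
  rw [ModularForm.smul_slash, UpperHalfPlane.σ, if_pos hg]
  rfl

lemma S_matN_mul_mem {γ : SL(2, ℤ)} (hγ : γ ∈ CongruenceSubgroup.Gamma0 p) :
    ∃ δ ∈ CongruenceSubgroup.Gamma0 p,
      (ModularGroup.S : GL (Fin 2) ℝ) * matN p * (γ : GL (Fin 2) ℝ) =
        (δ : GL (Fin 2) ℝ) * ((ModularGroup.S : GL (Fin 2) ℝ) * matN p) := by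
  have hγ' := hγ
  rw [CongruenceSubgroup.Gamma0_mem, ZMod.intCast_zmod_eq_zero_iff_dvd] at hγ
  obtain ⟨c, hc⟩ := hγ
  have hdet : γ 0 0 * γ 1 1 - γ 0 1 * γ 1 0 = 1 := by
    have := γ.det_coe
    rwa [Matrix.det_fin_two] at this
  let δ : SL(2, ℤ) := ⟨!![γ 1 1, -c; - (p * γ 0 1), γ 0 0], by
    rw [Matrix.det_fin_two_of]; rw [hc] at hdet; linarith⟩
  have d00 : δ 0 0 = γ 1 1 := rfl
  have d01 : δ 0 1 = -c := rfl
  have d10 : δ 1 0 = - (p * γ 0 1) := rfl
  have d11 : δ 1 1 = γ 0 0 := rfl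
  have s00 : ModularGroup.S 0 0 = 0 := rfl
  have s01 : ModularGroup.S 0 1 = -1 := rfl
  have s10 : ModularGroup.S 1 0 = 1 := rfl
  have s11 : ModularGroup.S 1 1 = 0 := rfl
  have hc' := congrArg (fun z : ℤ => (z : ℝ)) hc
  push_cast at hc'
  refine ⟨δ, ?_, ?_⟩
  · rw [CongruenceSubgroup.Gamma0_mem, ZMod.intCast_zmod_eq_zero_iff_dvd, d10]
    exact (dvd_neg).2 (Dvd.intro _ rfl)
  · apply Matrix.GeneralLinearGroup.ext
    intro i j
    simp only [Matrix.GeneralLinearGroup.coe_mul, Matrix.mul_apply, Fin.sum_univ_two, coe_entry,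
      matN_apply]
    fin_cases i <;> fin_cases j
    · simp [d00, d01, s00, s01, s10, s11]; linarith
    · simp [d00, d01, s00, s01, s10, s11]
    · simp [d10, d11, s00, s01, s10, s11]; ring
    · simp [d10, d11, s00, s01, s10, s11]

variable {p} {k : ℤ} {f g : ℍ → ℂ}

lemma isMF_fr (hf : IsMF (CongruenceSubgroup.Gamma0 p) k f) :
    IsMF (CongruenceSubgroup.Gamma0 p) k (fr p k f) := by
  have key : IsMF (CongruenceSubgroup.Gamma0 p) k ((f ∣[k] ModularGroup.S) ∣[k] matN p) := by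
    refine ⟨⟨?_, fun γ => ?_⟩, fun γ hγ => ?_⟩
    · exact MDifferentiable.slash (holo_slash hf.holo k _) k _
    · obtain ⟨δ, a, b, d, h, ha, hac, heq⟩ := exists_decomp p γ
      rw [SL_slash (f := (f ∣[k] ModularGroup.S) ∣[k] matN p), ← SlashAction.slash_mul, heq,
        SlashAction.slash_mul]
      refine IsBoundedAtImInfty.slash k (by rw [triMat_apply]; simp) ?_
      have := hf.bdd (ModularGroup.S * δ)
      rw [SlashAction.slash_mul] at this
      exact this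
    · obtain ⟨δ, hδ, heq⟩ := S_matN_mul_mem p hγ
      have h1 : (f ∣[k] ModularGroup.S) ∣[k] matN p =
          f ∣[k] ((ModularGroup.S : GL (Fin 2) ℝ) * matN p) := by
        rw [SlashAction.slash_mul]; rfl
      rw [h1, SL_slash (f := f ∣[k] ((ModularGroup.S : GL (Fin 2) ℝ) * matN p)),
        ← SlashAction.slash_mul, heq, SlashAction.slash_mul]
      have h2 : f ∣[k] (δ : GL (Fin 2) ℝ) = f := hf.slash δ hδ
      rw [h2]
  rw [fr_eq]
  exact key.smul _

lemma fr_fr (hk : Even k) : fr p k (fr p k f) = ((p : ℂ) ^ k)⁻¹ • f := by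
  have hp : (p : ℂ) ≠ 0 := by exact_mod_cast NeZero.ne p
  funext z
  have hz : (z : ℂ) ≠ 0 := z.ne_zero
  simp only [fr, SlashInvariantForm.slash_S_apply, Pi.smul_apply, smul_eq_mul]
  have h1 : (UpperHalfPlane.mk _ (pz p (UpperHalfPlane.mk _
      (pz p z).im_inv_neg_coe_pos)).im_inv_neg_coe_pos : ℍ) = z := by
    apply UpperHalfPlane.ext
    rw [UpperHalfPlane.coe_mk, coe_pz, UpperHalfPlane.coe_mk, coe_pz]
    field_simp
  have h2 : ((pz p (UpperHalfPlane.mk _ (pz p z).im_inv_neg_coe_pos) : ℍ) : ℂ) *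
      ((pz p z : ℍ) : ℂ) = -p := by
    rw [coe_pz, UpperHalfPlane.coe_mk, coe_pz]
    field_simp
  rw [h1, mul_assoc, ← mul_zpow, h2, mul_comm, hk.neg.neg_zpow, zpow_neg]

end N

section prime

variable {p : ℕ} [hp : Fact p.Prime] {k : ℤ} {f g : ℍ → ℂ}

instance instNeZeroPrime : NeZero p := ⟨hp.out.ne_zero⟩

lemma pz_heckeMatrix (j : ℕ) (z : ℍ) : pz p (heckeMatrix p j • z) = ModularGroup.T ^ j • z := by
  apply UpperHalfPlane.ext
  have hp' : (p : ℂ) ≠ 0 := by exact_mod_cast hp.out.ne_zero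
  rw [coe_pz, coe_heckeMatrix_smul hp.out.ne_zero, ← zpow_natCast,
    UpperHalfPlane.modular_T_zpow_smul, coe_vadd]
  field_simp
  push_cast
  ring

lemma slash_T_pow_apply (k : ℤ) (F : ℍ → ℂ) (j : ℕ) (z : ℍ) :
    (F ∣[k] (ModularGroup.T ^ j : SL(2, ℤ))) z = F (ModularGroup.T ^ j • z) := by
  rw [SL_slash_apply]
  have h5 : ((ModularGroup.T ^ j : SL(2, ℤ)) : Matrix (Fin 2) (Fin 2) ℤ) = !![1, (j : ℤ); 0, 1] := by
    rw [← zpow_natCast, ModularGroup.coe_T_zpow]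
  have h3 : denom ((ModularGroup.T ^ j : SL(2, ℤ)) : GL (Fin 2) ℝ) (z : ℂ) = 1 := by
    rw [ModularGroup.denom_apply, h5]
    simp
  rw [h3, one_zpow, mul_one]

lemma slash_ST_apply (j : ℕ) (z : ℍ) :
    (f ∣[k] (ModularGroup.S * ModularGroup.T ^ j)) z = fr p k f (heckeMatrix p j • z) := by
  rw [SlashAction.slash_mul, slash_T_pow_apply, fr, pz_heckeMatrix]

lemma tr_eq_add_heckeU (hf : IsMF (CongruenceSubgroup.Gamma0 p) k f) :
    tr (CongruenceSubgroup.Gamma0 p) k f = f + (p : ℂ) • heckeU k p (fr p k f) := by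
  have hp' : (p : ℂ) ≠ 0 := by exact_mod_cast hp.out.ne_zero
  rw [tr_Gamma0 hf]
  congr 1
  funext z
  rw [Finset.sum_apply, Pi.smul_apply, heckeU_apply k hp.out.ne_zero, smul_eq_mul, ← mul_assoc,
    mul_inv_cancel₀ hp', one_mul, ← Fin.sum_univ_eq_sum_range
      (fun j => fr p k f (heckeMatrix p j • z))]
  exact Finset.sum_congr rfl fun j _ => slash_ST_apply j z

lemma isMF_heckeU (hf : IsMF (CongruenceSubgroup.Gamma0 p) k f) :
    IsMF (CongruenceSubgroup.Gamma0 p) k (heckeU k p f) :=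
  IsMF.of_class (ModularForm.heckeULin k (dvd_refl p) hf.toForm)

lemma levelOne_weight_two_eq_zero {F : ℍ → ℂ} (hF : IsMF ⊤ 2 F) : F = 0 := by
  have h1 : hF.toSL = 0 :=
    rank_zero_iff_forall_zero.mp ModularForm.levelOne_weight_two_rank_zero (hF.toSL)
  have := congrArg (fun F : ModularForm 𝒮ℒ (2 : ℤ) => (F : ℍ → ℂ)) h1
  simpa using this

/-- On weight two forms of prime level `w_p = -U_p`. -/
lemma fr_weight_two (hf : IsMF (CongruenceSubgroup.Gamma0 p) 2 f) :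
    fr p 2 f = -((p : ℂ)⁻¹) • heckeU 2 p f := by
  have hp' : (p : ℂ) ≠ 0 := by exact_mod_cast hp.out.ne_zero
  have h1 := levelOne_weight_two_eq_zero (isMF_tr (isMF_fr hf))
  rw [tr_eq_add_heckeU (isMF_fr hf), fr_fr (by decide), heckeU_smul] at h1
  have h2 : (p : ℂ) * ((p : ℂ) ^ (2 : ℤ))⁻¹ = (p : ℂ)⁻¹ := by
    rw [zpow_ofNat]
    field_simp
  rw [smul_smul, h2] at h1
  rw [eq_neg_of_add_eq_zero_left h1]
  exact (_root_.neg_smul _ _).symm

lemma T_mem : ModularGroup.T ∈ CongruenceSubgroup.Gamma0 p := by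
  rw [CongruenceSubgroup.Gamma0_mem]
  simp [ModularGroup.T]

lemma qe_heckeU (hf : QG f) (k : ℤ) (n : ℕ) :
    (qe (heckeU k p f)).coeff n = (qe f).coeff (n * p) :=
  UpperHalfPlane.qCoeff_heckeU hf.per hf.holo hf.bdd k hp.out.ne_zero n

lemma coeff_fr_weight_two (hf : IsMF (CongruenceSubgroup.Gamma0 p) 2 f) (n : ℕ) :
    (qe (fr p 2 f)).coeff n = -((p : ℂ)⁻¹) * (qe f).coeff (n * p) := by
  rw [fr_weight_two hf, ((isMF_heckeU hf).qg T_mem).qe_smul, PowerSeries.coeff_smul,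
    qe_heckeU (hf.qg T_mem), smul_eq_mul]

lemma qe_tr (hf : IsMF (CongruenceSubgroup.Gamma0 p) k f) (n : ℕ) :
    (qe (tr (CongruenceSubgroup.Gamma0 p) k f)).coeff n =
      (qe f).coeff n + p * (qe (fr p k f)).coeff (n * p) := by
  have h1 := (isMF_heckeU (isMF_fr hf)).qg T_mem
  rw [tr_eq_add_heckeU hf, (hf.qg T_mem).qe_add (h1.smul _), h1.qe_smul, map_add,
    PowerSeries.coeff_smul, qe_heckeU ((isMF_fr hf).qg T_mem), smul_eq_mul]

end prime

end

end Fermat.Agent.Eis
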