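import Fermat.Agent.Eis.NoForm

set_option autoImplicit false

open UpperHalfPlane ModularForm Complex Filter Topology Matrix.SpecialLinearGroup
open scoped MatrixGroups Manifold Real
open Fermat.Agent.MFLib

namespace Fermat.Agent.Eis

noncomputable section

local notation "Δ" => ModularForm.discriminant

variable {p : ℕ} [hp : Fact p.Prime] {k : ℤ} {f g : ℍ → ℂ}

/-! ### level one facts -/

lemma exists_disc_mul (hf : IsMF ⊤ k f) (h0 : (qe f).coeff 0 = 0) :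
    ∃ g : ℍ → ℂ, IsMF ⊤ (k - 12) g ∧ f = Δ * g := by
  set G := ModularForm.toCuspForm hf.toSL h0 with hG
  set g : ModularForm 𝒮ℒ (k - 12) := CuspForm.discriminantEquiv G with hg
  refine ⟨g, IsMF.of_SL g, ?_⟩
  have h2 := ModularForm.discriminant_mul_discriminantEquiv G
  rw [← hg] at h2
  rw [h2]
  ext z
  simp [hG]

lemma eq_zero_of_wt_lt (hf : IsMF ⊤ k f) (hk : k < 12) (h0 : (qe f).coeff 0 = 0) : f = 0 := by
  obtain ⟨g, hg, rfl⟩ := exists_disc_mul hf h0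
  have : g = 0 := ModularFormClass.levelOne_neg_weight_eq_zero (by omega) hg.toSL
  rw [this, mul_zero]

lemma eq_zero_of_wt14 (hf : IsMF ⊤ 14 f) (h0 : (qe f).coeff 0 = 0) : f = 0 := by
  obtain ⟨g, hg, rfl⟩ := exists_disc_mul hf h0
  have : g = 0 := levelOne_weight_two_eq_zero (hg.congr_weight (by norm_num))
  rw [this, mul_zero]

lemma eq_smul_disc (hf : IsMF ⊤ 12 f) (h0 : (qe f).coeff 0 = 0) :
    ∃ c : ℂ, f = c • (Δ : ℍ → ℂ) := by
  obtain ⟨g, hg, rfl⟩ := exists_disc_mul hf h0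
  obtain ⟨c, hc'⟩ := ModularFormClass.levelOne_weight_zero_const
    ((hg.congr_weight (by norm_num : (12 : ℤ) - 12 = 0)).toSL)
  rw [IsMF.coe_toSL] at hc'
  refine ⟨c, ?_⟩
  rw [hc']
  ext z
  simp [mul_comm]

lemma eq_smul_of_wt_lt (hf : IsMF ⊤ k f) (hg : IsMF ⊤ k g) (hk : k < 12)
    (h0 : (qe g).coeff 0 = 1) : f = (qe f).coeff 0 • g := by
  rw [← sub_eq_zero]
  refine eq_zero_of_wt_lt (hf.sub (hg.smul _)) hk ?_
  rw [hf.qg_top.qe_sub (hg.qg_top.smul _), hg.qg_top.qe_smul, map_sub, PowerSeries.coeff_smul, h0]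
  simp

/-! ### Ramanujan's tau function -/

/-- Ramanujan's tau function -/
def tau (n : ℕ) : ℂ := (qe (Δ : ℍ → ℂ)).coeff n

lemma isInt_disc : IsInt (qe (Δ : ℍ → ℂ)) := by
  rw [qe, JFun.qExpansion_discriminant]
  intro n
  have : (PowerSeries.X * ModularCurve.dedekindEtaUnit.map (Int.castRingHom ℂ) : PowerSeries ℂ) =
    (PowerSeries.X * ModularCurve.dedekindEtaUnit : PowerSeries ℤ).map (Int.castRingHom ℂ) := by
    rw [map_mul, PowerSeries.map_X]
  rw [this, PowerSeries.coeff_map]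
  exact ⟨_, rfl⟩

lemma tau_zero : tau 0 = 0 := by
  rw [tau, qe, JFun.qExpansion_discriminant, PowerSeries.coeff_zero_X_mul]

lemma tau_one : tau 1 = 1 := by
  rw [tau, qe, JFun.qExpansion_discriminant, PowerSeries.coeff_succ_X_mul, PowerSeries.coeff_map,
    PowerSeries.coeff_zero_eq_constantCoeff_apply, ModularCurve.constantCoeff_dedekindEtaUnit]
  simp

lemma isInt_tau (n : ℕ) : ∃ m : ℤ, tau n = m := isInt_disc n

lemma fr_fr_disc : fr p 12 (fr p 12 (Δ : ℍ → ℂ)) = ((p : ℂ) ^ 12)⁻¹ • (Δ : ℍ → ℂ) := by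
  rw [fr_fr (by decide)]
  norm_cast

lemma isMF_frDisc : IsMF (CongruenceSubgroup.Gamma0 p) 12 (fr p 12 (Δ : ℍ → ℂ)) :=
  isMF_fr (isMF_disc.mono le_top)

lemma tau_sq_aux (n : ℕ) :
    (qe (tr (CongruenceSubgroup.Gamma0 p) 12 (fr p 12 (Δ : ℍ → ℂ)))).coeff n =
      (expP p (qe (Δ : ℍ → ℂ))).coeff n + ((p : ℂ) ^ 11)⁻¹ * tau (n * p) := by
  have hp' : (p : ℂ) ≠ 0 := by exact_mod_cast hp.out.ne_zero
  rw [qe_tr isMF_frDisc, qe_fr_top isMF_disc, fr_fr_disc, qg_disc.qe_smul, PowerSeries.coeff_smul,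
    smul_eq_mul, tau]
  congr 1
  field_simp

/-- the Hecke relation `τ(p²) = τ(p)² - p¹¹` -/
theorem tau_sq : tau (p * p) = tau p ^ 2 - (p : ℂ) ^ 11 := by
  have hp' : (p : ℂ) ≠ 0 := by exact_mod_cast hp.out.ne_zero
  have hm : IsMF ⊤ 12 (tr (CongruenceSubgroup.Gamma0 p) 12 (fr p 12 (Δ : ℍ → ℂ))) :=
    isMF_tr isMF_frDisc
  obtain ⟨c, hc⟩ := eq_smul_disc hm (by
    rw [tau_sq_aux, coeff_expP, if_pos (dvd_zero _), Nat.zero_div, zero_mul, ← tau, tau_zero]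
    simp)
  have key : ∀ n, c * tau n = (expP p (qe (Δ : ℍ → ℂ))).coeff n + ((p : ℂ) ^ 11)⁻¹ * tau (n * p) := by
    intro n
    rw [← tau_sq_aux, hc, qg_disc.qe_smul, PowerSeries.coeff_smul, smul_eq_mul, tau]
  have h1 := key 1
  have h2 := key p
  rw [tau_one, coeff_expP, if_neg (fun h => hp.out.one_lt.ne' (Nat.dvd_one.1 h)), one_mul, zero_add,
    mul_one] at h1
  rw [coeff_expP, if_pos dvd_rfl, Nat.div_self hp.out.pos, ← tau, tau_one, h1] at h2
  field_simp at h2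
  linear_combination (-1 : ℂ) * h2

end

end Fermat.Agent.Eis
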