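import Fermat.Agent.Eis.Norm

set_option autoImplicit false

open UpperHalfPlane ModularForm Complex Filter Topology Matrix.SpecialLinearGroup
open scoped MatrixGroups Manifold Real
open Fermat.Agent.MFLib

namespace Fermat.Agent.Eis

noncomputable section

variable {p : ℕ} [hp : Fact p.Prime] {k : ℤ} {f g : ℍ → ℂ}

lemma fr_top (hf : IsMF ⊤ k f) (z : ℍ) : fr p k f z = f (pz p z) := by
  rw [fr, hf.slash _ (Subgroup.mem_top _)]

lemma qParam_pz (τ : ℍ) :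
    Function.Periodic.qParam (1 : ℝ) ((pz p τ : ℍ) : ℂ) =
      Function.Periodic.qParam (1 : ℝ) (τ : ℂ) ^ p := by
  rw [Function.Periodic.qParam, Function.Periodic.qParam, coe_pz, ← Complex.exp_nat_mul]
  congr 1
  push_cast
  ring

lemma hasSum_expP {P : PowerSeries ℂ} {q a : ℂ}
    (h : HasSum (fun m => P.coeff m • (q ^ p) ^ m) a) :
    HasSum (fun m => (expP p P).coeff m • q ^ m) a := by
  have hinj : Function.Injective (fun m : ℕ => m * p) := fun a b hab =>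
    Nat.eq_of_mul_eq_mul_right hp.out.pos hab
  rw [← hinj.hasSum_iff]
  · refine hasSum_congr_aux h fun m => ?_
    simp only [Function.comp_apply]
    rw [coeff_expP_mul hp.out.pos, ← pow_mul, mul_comm m p]
  · intro x hx
    rw [coeff_expP, if_neg, zero_smul]
    rintro ⟨m, rfl⟩
    exact hx ⟨m, mul_comm _ _⟩

lemma qe_fr_top (hf : IsMF ⊤ k f) : qe (fr p k f) = expP p (qe f) := by
  have hg : QG (fr p k f) := (isMF_fr (hf.mono le_top)).qg T_mem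
  ext n
  refine qExpansion_coeff_unique_fun (c := fun n => (expP p (qe f)).coeff n)
    hg.holo.continuous one_pos hg.analyticAt (fun τ => ?_) n
  apply hasSum_expP
  have h1 := UpperHalfPlane.hasSum_qExpansion one_pos hf.qg_top.per hf.qg_top.holo hf.qg_top.bdd
    (pz p τ)
  rw [fr_top hf]
  refine hasSum_congr_aux h1 fun m => ?_
  rw [qParam_pz]

lemma isMF_E4 : IsMF ⊤ 4 (E₄ : ℍ → ℂ) := IsMF.of_SL E₄
lemma isMF_E6 : IsMF ⊤ 6 (E₆ : ℍ → ℂ) := IsMF.of_SL E₆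

/-- the polynomial giving `6912 ψ₃` -/
def P8 {A : Type*} [CommRing A] (e₄ e₆ g : A) : A :=
  g ^ 4 - 6 * (e₄ * g ^ 2) + 8 * (e₆ * g) - 3 * e₄ ^ 2

/-- weight eight form `6912 ψ₃` -/
def X8 (G : ℍ → ℂ) : ℍ → ℂ :=
  (6912 : ℂ)⁻¹ • (G ^ 4 - (6 : ℂ) • ((E₄ : ℍ → ℂ) * G ^ 2) + (8 : ℂ) • ((E₆ : ℍ → ℂ) * G) -
    (3 : ℂ) • (E₄ : ℍ → ℂ) ^ 2)

lemma isMF_X8 {Γ : Subgroup SL(2, ℤ)} {G : ℍ → ℂ} (hG : IsMF Γ 2 G) : IsMF Γ 8 (X8 G) := by
  have h4 : IsMF Γ 4 (E₄ : ℍ → ℂ) := isMF_E4.mono le_top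
  have h6 : IsMF Γ 6 (E₆ : ℍ → ℂ) := isMF_E6.mono le_top
  refine IsMF.smul _ (((?_ : IsMF Γ 8 _).sub ?_ |>.add ?_).sub ?_)
  · exact (hG.pow 4).congr_weight (by norm_num)
  · exact ((h4.mul (hG.pow 2)).congr_weight (by norm_num)).smul _
  · exact ((h6.mul hG).congr_weight (by norm_num)).smul _
  · exact ((h4.pow 2).congr_weight (by norm_num)).smul _

lemma qe_comb {e₄ e₆ G : ℍ → ℂ} (h4 : QG e₄) (h6 : QG e₆) (hG : QG G) :
    qe ((6912 : ℂ)⁻¹ • (G ^ 4 - (6 : ℂ) • (e₄ * G ^ 2) + (8 : ℂ) • (e₆ * G) -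
    (3 : ℂ) • e₄ ^ 2)) = (6912 : ℂ)⁻¹ • (qe G ^ 4 - (6 : ℂ) • (qe e₄ * qe G ^ 2) +
      (8 : ℂ) • (qe e₆ * qe G) - (3 : ℂ) • qe e₄ ^ 2) := by
  have a1 := hG.pow 4
  have a2 := h4.mul (hG.pow 2)
  have a3 := h6.mul hG
  have a4 := h4.pow 2
  rw [QG.qe_smul _ (((a1.sub (a2.smul _)).add (a3.smul _)).sub (a4.smul _)),
    QG.qe_sub ((a1.sub (a2.smul _)).add (a3.smul _)) (a4.smul _),
    QG.qe_add (a1.sub (a2.smul _)) (a3.smul _), QG.qe_sub a1 (a2.smul _),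
    QG.qe_smul _ a2, QG.qe_smul _ a3, QG.qe_smul _ a4, hG.qe_pow, h4.qe_pow,
    h4.qe_mul (hG.pow 2), h6.qe_mul hG, hG.qe_pow]

lemma fr_neg (f : ℍ → ℂ) : fr p k (-f) = - fr p k f := by
  have := fr_smul p k (-1) f
  simpa using this

lemma fr_sub (f g : ℍ → ℂ) : fr p k (f - g) = fr p k f - fr p k g := by
  rw [sub_eq_add_neg, fr_add, fr_neg, ← sub_eq_add_neg]

lemma fr_pow' (k l : ℤ) (f : ℍ → ℂ) (n : ℕ) (h : n * k = l) : fr p l (f ^ n) = fr p k f ^ n := by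
  rw [← h, fr_pow]

lemma fr_mul' (k l m : ℤ) (f g : ℍ → ℂ) (h : k + l = m) :
    fr p m (f * g) = fr p k f * fr p l g := by
  rw [← h, fr_mul]

lemma fr_X8 (G : ℍ → ℂ) : fr p 8 (X8 G) = (6912 : ℂ)⁻¹ • (fr p 2 G ^ 4 -
    (6 : ℂ) • (fr p 4 E₄ * fr p 2 G ^ 2) + (8 : ℂ) • (fr p 6 E₆ * fr p 2 G) -
    (3 : ℂ) • (fr p 4 E₄) ^ 2) := by
  rw [X8, fr_smul, fr_sub, fr_add, fr_sub, fr_smul, fr_smul, fr_smul,
    fr_pow' 2 8 G 4 (by norm_num), fr_pow' 4 8 (E₄ : ℍ → ℂ) 2 (by norm_num),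
    fr_mul' 4 4 8 (E₄ : ℍ → ℂ) (G ^ 2) (by norm_num), fr_mul' 6 2 8 (E₆ : ℍ → ℂ) G (by norm_num),
    fr_pow' 2 4 G 2 (by norm_num)]

lemma smul_eq_C_mul' (c : ℂ) (P : PowerSeries ℂ) : c • P = PowerSeries.C c * P :=
  PowerSeries.smul_eq_C_mul P c

/-- the polynomial identity of the third division polynomial -/
lemma psi_identity (a4 a6 r : PowerSeries ℂ) :
    (6912 : ℂ)⁻¹ • ((1 + (12 : ℂ) • r) ^ 4 - (6 : ℂ) • ((1 - (48 : ℂ) • a4) * (1 + (12 : ℂ) • r) ^ 2) +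
      (8 : ℂ) • ((1 - (72 : ℂ) • a4 + (864 : ℂ) • a6) * (1 + (12 : ℂ) • r)) -
      (3 : ℂ) • (1 - (48 : ℂ) • a4) ^ 2) =
    (a6 - a4 ^ 2) + ((12 : ℂ) • (r * a6) + (6 : ℂ) • (r ^ 2 * a4) + r ^ 3 + (3 : ℂ) • r ^ 4) := by
  rw [inv_smul_eq_iff₀ (by norm_num)]
  simp only [smul_eq_C_mul']
  have e : ∀ n : ℕ, PowerSeries.C (n : ℂ) = (n : PowerSeries ℂ) := fun n => map_natCast _ n
  have e1 := e 12; have e2 := e 48; have e3 := e 72; have e4 := e 864; have e5 := e 8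
  have e6 := e 6; have e7 := e 3; have e8 := e 6912
  simp only [Nat.cast_ofNat] at e1 e2 e3 e4 e5 e6 e7 e8
  rw [e1, e2, e3, e4, e5, e6, e7, e8]
  ring

variable {R : ValuationSubring ℂ}

lemma val_natCast_le (n : ℕ) : R.valuation (n : ℂ) ≤ 1 := by
  have := val_int_le (R := R) n
  rwa [Int.cast_natCast] at this

lemma val_ofNat_le (n : ℕ) [n.AtLeastTwo] : R.valuation (OfNat.ofNat n : ℂ) ≤ 1 :=
  val_natCast_le (R := R) n

lemma psi_congr {a4 a6 r : PowerSeries ℂ} (h4 : PI R a4) (h6 : PI R a6) (hr : PM R r) :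
    PM R ((a6 - a4 ^ 2) + ((12 : ℂ) • (r * a6) + (6 : ℂ) • (r ^ 2 * a4) + r ^ 3 + (3 : ℂ) • r ^ 4) -
      (a6 - a4 ^ 2)) := by
  rw [add_sub_cancel_left]
  refine ((PM.add ?_ ?_).add ?_).add ?_
  · exact (hr.mul h6).smul (val_ofNat_le 12)
  · exact ((hr.pow two_ne_zero).mul h4).smul (val_ofNat_le 6)
  · exact hr.pow three_ne_zero
  · exact (hr.pow four_ne_zero).smul (val_ofNat_le 3)

theorem no_form {G : ℍ → ℂ} (hG : IsMF (CongruenceSubgroup.Gamma0 p) 2 G) {r r₀ : PowerSeries ℂ}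
    (hr : PM R r) (hr₀ : PM R r₀) (h : qe G = 1 + (12 : ℂ) • r)
    (h₀ : qe (fr p 2 G) = 1 + (12 : ℂ) • r₀) : False := by
  have hp' := hp.out
  have hGq := hG.qg T_mem
  have hG0 := (isMF_fr hG).qg T_mem
  have i4 : PI R ta4 := PI.of_isInt isInt_ta4
  have i6 : PI R ta6 := PI.of_isInt isInt_ta6
  have hX := isMF_X8 hG
  have c1 : PM R (qe (X8 G) - tD) := by
    rw [X8, qe_comb qg_E4 qg_E6 hGq, h, qe_E4_eq, qe_E6_eq, psi_identity, tD]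
    exact psi_congr i4 i6 hr
  have c2 : PM R (qe (fr p 8 (X8 G)) - expP p tD) := by
    have q4 : QG (fr p 4 (E₄ : ℍ → ℂ)) := (isMF_fr (isMF_E4.mono le_top)).qg T_mem
    have q6 : QG (fr p 6 (E₆ : ℍ → ℂ)) := (isMF_fr (isMF_E6.mono le_top)).qg T_mem
    rw [fr_X8, qe_comb q4 q6 hG0, h₀, qe_fr_top isMF_E4, qe_fr_top isMF_E6, qe_E4_eq, qe_E6_eq,
      expP_add, expP_sub, expP_sub, expP_smul, expP_smul, expP_smul, expP_one hp'.pos,
      psi_identity, tD, expP_sub, expP_pow hp'.pos]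
    exact psi_congr (i4.expP p) (i6.expP p) hr₀
  have c3 := nrm_congr hX (PI.of_isInt isInt_tD) c1 c2
  have c4 := isMF_nrm hX
  have c5 := sturm_mod R _ _ rfl _ c4 (fun m hm => by
    have hlt : m < p + 1 := by
      have : (12 : ℤ) * m ≤ ((p + 1 : ℕ) : ℤ) * 8 := hm
      push_cast at this
      omega
    have := c3 m
    rw [map_sub, coeff_tD_pow_of_lt _ _ hlt, sub_zero] at this
    exact this)
  have c6 := (c5.sub c3) (p + 1)
  rw [sub_sub_cancel, coeff_tD_pow_self, map_pow, Valuation.map_neg, map_one, one_pow] at c6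
  exact lt_irrefl _ c6

end

end Fermat.Agent.Eis
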