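import Fermat.Agent.Eis.SturmMod

set_option autoImplicit false

open UpperHalfPlane ModularForm Complex Filter Topology Matrix.SpecialLinearGroup
open scoped MatrixGroups Manifold Real
open Fermat.Agent.MFLib

namespace Fermat.Agent.Eis

noncomputable section

variable {p : ℕ} [hp : Fact p.Prime] {k : ℤ} {f g : ℍ → ℂ}

lemma QG.qExpansion_width (hf : QG f) : qExpansion (p : ℝ) f = expP p (qe f) := by
  ext n
  have h := UpperHalfPlane.qExpansion_coeff_nat_mul one_pos hf.per hf.holo hf.bdd hp.out.pos n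
  rw [mul_one] at h
  rw [h, coeff_expP]

/-- the root of unity `e(j/p)` -/
def zt (p j : ℕ) : ℂ := cexp (2 * π * Complex.I * j / p)

lemma zt_pow (j : ℕ) : zt p j ^ p = 1 := by
  have hp' : (p : ℂ) ≠ 0 := by exact_mod_cast hp.out.ne_zero
  rw [zt, ← Complex.exp_nat_mul, Complex.exp_eq_one_iff]
  refine ⟨j, ?_⟩
  push_cast
  field_simp

lemma val_zt (R : ValuationSubring ℂ) (j : ℕ) : R.valuation (zt p j) = 1 := by
  have h := congrArg R.valuation (zt_pow (p := p) j)
  rw [map_pow, map_one] at h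
  exact (pow_eq_one_iff_left hp.out.ne_zero).mp h

omit hp in
lemma ST_conj_mem (j : ℕ) :
    ∃ γ ∈ CongruenceSubgroup.Gamma0 p, ModularGroup.S * ModularGroup.T ^ j * ModularGroup.T ^ p =
      γ * (ModularGroup.S * ModularGroup.T ^ j) := by
  refine ⟨ModularGroup.S * ModularGroup.T ^ p * ModularGroup.S⁻¹, ?_, ?_⟩
  · rw [CongruenceSubgroup.Gamma0_mem, ZMod.intCast_zmod_eq_zero_iff_dvd]
    obtain ⟨h1, h2, h3, h4⟩ := T_pow_entries p
    have hS : (ModularGroup.S : Matrix (Fin 2) (Fin 2) ℤ) = !![0, -1; 1, 0] := rfl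
    have hS' : ((ModularGroup.S⁻¹ : SL(2, ℤ)) : Matrix (Fin 2) (Fin 2) ℤ) = !![0, 1; -1, 0] := by
      rw [Matrix.SpecialLinearGroup.coe_inv, hS]
      ext i j; fin_cases i <;> fin_cases j <;> simp [Matrix.adjugate_fin_two]
    rw [Matrix.SpecialLinearGroup.coe_mul, Matrix.SpecialLinearGroup.coe_mul, Matrix.mul_apply,
      Fin.sum_univ_two, Matrix.mul_apply, Matrix.mul_apply, Fin.sum_univ_two, Fin.sum_univ_two, hS,
      hS']
    simp [h1, h2, h3, h4]
  · rw [mul_assoc, ← pow_add, add_comm, pow_add]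
    group

omit hp in
lemma slash_ST_periodic (hf : IsMF (CongruenceSubgroup.Gamma0 p) k f) (j : ℕ) :
    Function.Periodic ((f ∣[k] (ModularGroup.S * ModularGroup.T ^ j)) ∘ ofComplex) (p : ℝ) := by
  apply periodic_of_slash_T_pow (k := k)
  obtain ⟨γ, hγ, h⟩ := ST_conj_mem (p := p) j
  rw [← SlashAction.slash_mul, h, SlashAction.slash_mul, hf.slash γ hγ]

lemma p_pos' : (0 : ℝ) < p := by exact_mod_cast hp.out.pos

lemma analyticAt_slash_ST (hf : IsMF (CongruenceSubgroup.Gamma0 p) k f) (j : ℕ) :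
    AnalyticAt ℂ (cuspFunction (p : ℝ) (f ∣[k] (ModularGroup.S * ModularGroup.T ^ j))) 0 :=
  UpperHalfPlane.analyticAt_cuspFunction_zero p_pos' (slash_ST_periodic hf j)
    (holo_slash hf.holo k _) (hf.bdd _)

lemma qParam_heckeMatrix (j : ℕ) (τ : ℍ) :
    Function.Periodic.qParam (1 : ℝ) ((heckeMatrix p j • τ : ℍ) : ℂ) =
      zt p j * Function.Periodic.qParam (p : ℝ) (τ : ℂ) := by
  have hp' : (p : ℂ) ≠ 0 := by exact_mod_cast hp.out.ne_zero
  rw [Function.Periodic.qParam, Function.Periodic.qParam, coe_heckeMatrix_smul hp.out.ne_zero, zt,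
    ← Complex.exp_add]
  congr 1
  push_cast
  field_simp
  ring

lemma hasSum_congr_aux {f g : ℕ → ℂ} {a : ℂ} (h : HasSum f a) (hfg : ∀ n, g n = f n) :
    HasSum g a := by
  have : g = f := funext hfg
  rw [this]; exact h

lemma qExpansion_coeff_unique_fun {g : ℍ → ℂ} (hcont : Continuous g) {h : ℝ} {c : ℕ → ℂ}
    (hh : 0 < h) (hg : AnalyticAt ℂ (cuspFunction h g) 0)
    (hs : ∀ τ : ℍ, HasSum (fun m => c m • Function.Periodic.qParam h (τ : ℂ) ^ m) (g τ)) (m : ℕ) :
    (qExpansion h g).coeff m = c m :=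
  (UpperHalfPlane.qExpansion_coeff_unique (ContinuousMap.mk g hcont) hh hg hs m).symm

lemma hasSum_slash_ST (hf : IsMF (CongruenceSubgroup.Gamma0 p) k f) (j : ℕ) (τ : ℍ) :
    HasSum (fun m => (zt p j ^ m * (qe (fr p k f)).coeff m) •
      Function.Periodic.qParam (p : ℝ) (τ : ℂ) ^ m)
      ((f ∣[k] (ModularGroup.S * ModularGroup.T ^ j)) τ) := by
  have hg : QG (fr p k f) := (isMF_fr hf).qg T_mem
  have h1 := UpperHalfPlane.hasSum_qExpansion one_pos hg.per hg.holo hg.bdd (heckeMatrix p j • τ)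
  rw [slash_ST_apply (p := p)]
  refine hasSum_congr_aux h1 (fun m => ?_)
  rw [qParam_heckeMatrix, mul_pow, smul_eq_mul, smul_eq_mul]
  ring

lemma qExpansion_slash_ST (hf : IsMF (CongruenceSubgroup.Gamma0 p) k f) (j : ℕ) :
    qExpansion (p : ℝ) (f ∣[k] (ModularGroup.S * ModularGroup.T ^ j)) =
      PowerSeries.rescale (zt p j) (qe (fr p k f)) := by
  ext n
  rw [PowerSeries.coeff_rescale]
  exact qExpansion_coeff_unique_fun (holo_slash hf.holo k _).continuous p_pos'
    (analyticAt_slash_ST hf j) (hasSum_slash_ST hf j) n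

lemma rescale_zt_expP (D : PowerSeries ℂ) (j : ℕ) :
    PowerSeries.rescale (zt p j) (expP p D) = expP p D := by
  ext n
  rw [PowerSeries.coeff_rescale, coeff_expP]
  split_ifs with h
  · obtain ⟨m, rfl⟩ := h
    rw [pow_mul, zt_pow, one_pow, one_mul]
  · rw [mul_zero]

variable {R : ValuationSubring ℂ}

lemma PM.rescale_zt {P : PowerSeries ℂ} (hP : PM R P) (j : ℕ) :
    PM R (PowerSeries.rescale (zt p j) P) := fun n => by
  rw [PowerSeries.coeff_rescale, map_mul, map_pow, val_zt, one_pow, one_mul]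
  exact hP n

lemma PI.rescale_zt {P : PowerSeries ℂ} (hP : PI R P) (j : ℕ) :
    PI R (PowerSeries.rescale (zt p j) P) := fun n => by
  rw [PowerSeries.coeff_rescale, map_mul, map_pow, val_zt, one_pow, one_mul]
  exact hP n

/-- the `q`-expansion of the norm modulo the maximal ideal -/
theorem nrm_congr (hf : IsMF (CongruenceSubgroup.Gamma0 p) k f) {D : PowerSeries ℂ} (hD : PI R D)
    (h1 : PM R (qe f - D)) (h2 : PM R (qe (fr p k f) - expP p D)) :
    PM R (qe (nrm p k f) - D ^ (p + 1)) := by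
  have hq : expP p (qe (nrm p k f)) = expP p (qe f) *
      ∏ j : Fin p, PowerSeries.rescale (zt p (j : ℕ)) (qe (fr p k f)) := by
    rw [← QG.qExpansion_width (isMF_nrm hf).qg_top, nrm_eq hf, qExpansion_mul,
      QG.qExpansion_width (hf.qg T_mem), UpperHalfPlane.qExpansion_prod]
    · congr 1
      exact Finset.prod_congr rfl fun j _ => qExpansion_slash_ST hf j
    · exact fun j _ => analyticAt_slash_ST hf j
    · exact UpperHalfPlane.analyticAt_cuspFunction_zero p_pos' (by
        have := (hf.qg T_mem).per.nat_mul p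
        simpa using this) hf.holo hf.toHB.bdd_self
    · have : ∀ s : Finset (Fin p), AnalyticAt ℂ (cuspFunction (p : ℝ)
          (∏ j ∈ s, f ∣[k] (ModularGroup.S * ModularGroup.T ^ (j : ℕ)))) 0 := by
        intro s
        classical
        refine UpperHalfPlane.analyticAt_cuspFunction_zero p_pos' ?_ ?_ ?_
        · induction s using Finset.induction_on with
          | empty => intro w; simp
          | insert a s ha ih =>
            intro w
            have e1 := slash_ST_periodic hf (a : ℕ) w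
            have e2 := ih w
            simp only [Function.comp_apply] at e1 e2 ⊢
            rw [Finset.prod_insert ha, Pi.mul_apply, Pi.mul_apply, e1, e2]
        · exact (HB.prod (k := k) fun j _ => hf.toHB.slash _).holo
        · exact (HB.prod (k := k) fun j _ => hf.toHB.slash _).bdd_self
      exact this Finset.univ
  have hfr : PI R (qe (fr p k f)) := by
    have := h2.pi.add (hD.expP p)
    rwa [sub_add_cancel] at this
  have key : PM R (expP p (qe (nrm p k f)) - expP p (D ^ (p + 1))) := by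
    rw [hq, expP_pow hp.out.pos, pow_succ']
    have h3 : (expP p D) ^ p = ∏ j : Fin p, expP p D := by simp
    rw [h3]
    refine PM.mul_congr ?_ ?_ ?_ (hD.expP p)
    · rw [← expP_sub]; exact h1.expP p
    · refine PM.prod_congr _ (fun j _ => ?_) (fun j _ => hfr.rescale_zt _) (fun j _ => hD.expP p)
      have := h2.rescale_zt (p := p) (j : ℕ)
      rwa [map_sub, rescale_zt_expP] at this
    · exact PI.prod _ fun j _ => hfr.rescale_zt _
  intro n
  have := key (n * p)
  rwa [map_sub, coeff_expP_mul hp.out.pos, coeff_expP_mul hp.out.pos, ← map_sub] at this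

end

end Fermat.Agent.Eis
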