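import Fermat.Agent.Eis.Const
import Mathlib.NumberTheory.ModularForms.EisensteinSeries.E2.Transform
import Mathlib.NumberTheory.ModularForms.EisensteinSeries.E2.MDifferentiable

set_option autoImplicit false

open UpperHalfPlane ModularForm Complex Filter Topology Matrix.SpecialLinearGroup
open scoped MatrixGroups Manifold Real ArithmeticFunction.sigma
open Fermat.Agent.MFLib

namespace Fermat.Agent.Eis

noncomputable section

variable {p : ℕ} [hp : Fact p.Prime]

/-- the weight two Eisenstein series of level `p` -/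
def eis (p : ℕ) [NeZero p] : ℍ → ℂ :=
  (-(1 / 24) : ℂ) • (EisensteinSeries.E2 - EisensteinSeries.E2 ∣[(2 : ℤ)] matN p)

lemma D2_bdd (γ : SL(2, ℤ)) : IsBoundedAtImInfty (EisensteinSeries.D2 γ) := by
  rw [UpperHalfPlane.isBoundedAtImInfty_iff]
  refine ⟨2 * π, 1, fun z hz => ?_⟩
  simp only [EisensteinSeries.D2]
  by_cases hc : γ 1 0 = 0
  · rw [hc]; simp; positivity
  · have h1 : |(γ 1 0 : ℝ)| ≤ ‖denom γ z‖ := by
      rw [ModularGroup.denom_apply]
      have h2 : |((γ 1 0 : ℂ) * z + (γ 1 1 : ℂ)).im| ≤ ‖(γ 1 0 : ℂ) * z + (γ 1 1 : ℂ)‖ :=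
        Complex.abs_im_le_norm _
      refine le_trans ?_ h2
      have h3 : ((γ 1 0 : ℂ) * z + (γ 1 1 : ℂ)).im = (γ 1 0 : ℝ) * z.im := by
        simp
      rw [h3, abs_mul, abs_of_pos z.im_pos]
      exact le_mul_of_one_le_right (abs_nonneg _) hz
    have hpos : 0 < |(γ 1 0 : ℝ)| := abs_pos.2 (by exact_mod_cast hc)
    rw [norm_div, div_le_iff₀ (hpos.trans_le h1)]
    have h4 : ‖(2 * π * Complex.I * (γ 1 0 : ℂ) : ℂ)‖ = 2 * π * |(γ 1 0 : ℝ)| := by
      rw [norm_mul, norm_mul, norm_mul]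
      simp [abs_of_pos Real.pi_pos]
    rw [h4]
    exact mul_le_mul_of_nonneg_left h1 (by positivity)

lemma bdd_neg {f : ℍ → ℂ} (hf : IsBoundedAtImInfty f) : IsBoundedAtImInfty (-f) := by
  have h := hf.const_smul_left (-1 : ℂ)
  rwa [_root_.neg_smul, one_smul] at h

lemma E2_slash_bdd (γ : SL(2, ℤ)) :
    IsBoundedAtImInfty (EisensteinSeries.E2 ∣[(2 : ℤ)] γ) := by
  rw [EisensteinSeries.E2_slash_action, sub_eq_add_neg]
  exact (EisensteinSeries.isBoundedAtImInfty_E2).add (bdd_neg ((D2_bdd γ).const_smul_left _))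

lemma matN_conj {γ : SL(2, ℤ)} (hγ : γ ∈ CongruenceSubgroup.Gamma0 p) :
    ∃ δ : SL(2, ℤ), matN p * (γ : GL (Fin 2) ℝ) = (δ : GL (Fin 2) ℝ) * matN p ∧
      γ 1 0 = p * δ 1 0 ∧ δ 1 1 = γ 1 1 := by
  rw [CongruenceSubgroup.Gamma0_mem, ZMod.intCast_zmod_eq_zero_iff_dvd] at hγ
  obtain ⟨c, hc⟩ := hγ
  have hdet : γ 0 0 * γ 1 1 - γ 0 1 * γ 1 0 = 1 := by
    have := γ.det_coe
    rwa [Matrix.det_fin_two] at this
  let δ : SL(2, ℤ) := ⟨!![γ 0 0, p * γ 0 1; c, γ 1 1], by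
    rw [Matrix.det_fin_two_of]; rw [hc] at hdet; linarith⟩
  have hc' := congrArg (fun z : ℤ => (z : ℝ)) hc
  push_cast at hc'
  have d00 : δ 0 0 = γ 0 0 := rfl
  have d01 : δ 0 1 = p * γ 0 1 := rfl
  have d10 : δ 1 0 = c := rfl
  have d11 : δ 1 1 = γ 1 1 := rfl
  refine ⟨δ, ?_, ?_, rfl⟩
  · apply Matrix.GeneralLinearGroup.ext
    intro i j
    rw [Matrix.GeneralLinearGroup.coe_mul, Matrix.GeneralLinearGroup.coe_mul, Matrix.mul_apply,
      Matrix.mul_apply, Fin.sum_univ_two, Fin.sum_univ_two]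
    simp only [coe_entry, matN_apply]
    fin_cases i <;> fin_cases j
    · simp [d00, d01]; ring
    · simp [d00, d01]
    · simp [d10, d11]; linarith
    · simp [d10, d11]
  · rw [hc, d10]

lemma E2_matN_slash {γ : SL(2, ℤ)} (hγ : γ ∈ CongruenceSubgroup.Gamma0 p) :
    (EisensteinSeries.E2 ∣[(2 : ℤ)] matN p) ∣[(2 : ℤ)] γ =
      EisensteinSeries.E2 ∣[(2 : ℤ)] matN p -
        (1 / (2 * riemannZeta 2)) • EisensteinSeries.D2 γ := by
  have hp' : (p : ℂ) ≠ 0 := by exact_mod_cast hp.out.ne_zero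
  obtain ⟨δ, h1, h2, h3⟩ := matN_conj hγ
  have h4 : EisensteinSeries.E2 ∣[(2 : ℤ)] (δ : GL (Fin 2) ℝ) =
      EisensteinSeries.E2 - (1 / (2 * riemannZeta 2)) • EisensteinSeries.D2 δ :=
    EisensteinSeries.E2_slash_action δ
  rw [SL_slash (f := EisensteinSeries.E2 ∣[(2 : ℤ)] matN p), ← SlashAction.slash_mul, h1,
    SlashAction.slash_mul, h4]
  funext z
  rw [slash_matN_apply, Pi.sub_apply, Pi.sub_apply, slash_matN_apply, Pi.smul_apply,
    Pi.smul_apply]
  have h5 : (p : ℂ) ^ ((2 : ℤ) - 1) = p := by norm_num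
  have h6 : EisensteinSeries.D2 γ z = p * EisensteinSeries.D2 δ (pz p z) := by
    simp only [EisensteinSeries.D2]
    rw [ModularGroup.denom_apply, ModularGroup.denom_apply, coe_pz, h2, h3]
    push_cast
    ring_nf
  rw [h5, h6]
  simp only [smul_eq_mul]
  ring

theorem isMF_eis : IsMF (CongruenceSubgroup.Gamma0 p) 2 (eis p) := by
  have key : IsMF (CongruenceSubgroup.Gamma0 p) 2
      (EisensteinSeries.E2 - EisensteinSeries.E2 ∣[(2 : ℤ)] matN p) := by
    refine ⟨⟨?_, fun γ => ?_⟩, fun γ hγ => ?_⟩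
    · exact E2_mdifferentiable.sub
        (MDifferentiable.slash E2_mdifferentiable 2 _)
    · obtain ⟨δ, a, b, d, h, ha, hac, heq⟩ := exists_decomp p γ
      rw [sub_eq_add_neg, SlashAction.add_slash, SlashAction.neg_slash]
      refine (E2_slash_bdd γ).add (bdd_neg ?_)
      rw [SL_slash (f := EisensteinSeries.E2 ∣[(2 : ℤ)] matN p), ← SlashAction.slash_mul, heq,
        SlashAction.slash_mul]
      exact IsBoundedAtImInfty.slash 2 (by rw [triMat_apply]; simp) (E2_slash_bdd δ)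
    · rw [sub_eq_add_neg, SlashAction.add_slash, SlashAction.neg_slash, E2_matN_slash hγ,
        EisensteinSeries.E2_slash_action]
      abel
  exact key.smul _

/-- the `q`-expansion of `E₂` -/
def e2 : PowerSeries ℂ := 1 - (24 : ℂ) • sg 1

lemma coeff_e2 (m : ℕ) : e2.coeff m = if m = 0 then 1 else -24 * ((σ 1 m : ℕ) : ℂ) := by
  rw [e2, map_sub, PowerSeries.coeff_smul, coeff_sg, PowerSeries.coeff_one]
  split_ifs with h
  · subst h; simp
  · simp

lemma hasSum_E2 (τ : ℍ) :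
    HasSum (fun m => e2.coeff m • Function.Periodic.qParam (1 : ℝ) (τ : ℂ) ^ m)
      (EisensteinSeries.E2 τ) := by
  refine hasSum_congr_aux (EisensteinSeries.hasSum_qExpansion_E2 (z := τ)) fun m => ?_
  rw [coeff_e2]
  simp only [Function.Periodic.qParam, ofReal_one, div_one]

theorem qe_eis : qe (eis p) = (-(1 / 24) : ℂ) • (e2 - (p : ℂ) • expP p e2) := by
  have hg : QG (eis p) := isMF_eis.qg T_mem
  ext n
  refine qExpansion_coeff_unique_fun
    (c := fun n => ((-(1 / 24) : ℂ) • (e2 - (p : ℂ) • expP p e2)).coeff n)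
    hg.holo.continuous one_pos hg.analyticAt (fun τ => ?_) n
  have h1 := hasSum_E2 τ
  have h2 : HasSum (fun m => (expP p e2).coeff m • Function.Periodic.qParam (1 : ℝ) (τ : ℂ) ^ m)
      (EisensteinSeries.E2 (pz p τ)) := by
    apply hasSum_expP
    rw [← qParam_pz]
    exact hasSum_E2 (pz p τ)
  have h3 := (h1.sub (h2.mul_left (p : ℂ))).mul_left (-(1 / 24) : ℂ)
  have h4 : eis p τ = (-(1 / 24) : ℂ) * (EisensteinSeries.E2 τ -
      p * EisensteinSeries.E2 (pz p τ)) := by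
    rw [eis, Pi.smul_apply, Pi.sub_apply, slash_matN_apply]
    have h5 : (p : ℂ) ^ ((2 : ℤ) - 1) = p := by norm_num
    rw [h5, smul_eq_mul]
  rw [h4]
  refine hasSum_congr_aux h3 fun m => ?_
  simp only [PowerSeries.coeff_smul, map_sub, smul_eq_mul]
  ring

end

end Fermat.Agent.Eis
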