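import Fermat.Agent.Eis.Series

set_option autoImplicit false

open scoped ArithmeticFunction.sigma
open Fermat.Agent.MFLib

namespace Fermat.Agent.Eis

noncomputable section

lemma geom_rec (ℓ j : ℕ) : (∑ i ∈ Finset.range (j + 3), ℓ ^ i) + ℓ * ∑ i ∈ Finset.range (j + 1), ℓ ^ i
    = (1 + ℓ) * ∑ i ∈ Finset.range (j + 2), ℓ ^ i := by
  have h1 : ∑ i ∈ Finset.range (j + 2), ℓ ^ i = ∑ i ∈ Finset.range (j + 1), ℓ ^ i + ℓ ^ (j + 1) :=
    Finset.sum_range_succ _ _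
  have h2 : ∑ i ∈ Finset.range (j + 3), ℓ ^ i = ∑ i ∈ Finset.range (j + 2), ℓ ^ i + ℓ ^ (j + 2) :=
    Finset.sum_range_succ _ _
  rw [h2, h1]
  ring

lemma sigma_one_hecke {ℓ : ℕ} (hℓ : ℓ.Prime) (m : ℕ) :
    σ 1 (m * ℓ) + (if ℓ ∣ m then ℓ * σ 1 (m / ℓ) else 0) = (1 + ℓ) * σ 1 m := by
  rcases Nat.eq_zero_or_pos m with rfl | hm
  · simp
  obtain ⟨k, r, hr, rfl⟩ := Nat.exists_eq_pow_mul_and_not_dvd hm.ne' ℓ hℓ.ne_one
  have hcop : ∀ i : ℕ, Nat.Coprime (ℓ ^ i) r := fun i =>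
    Nat.Coprime.pow_left i ((Nat.Prime.coprime_iff_not_dvd hℓ).2 hr)
  have hmul : ∀ i : ℕ, σ 1 (ℓ ^ i * r) = σ 1 (ℓ ^ i) * σ 1 r := fun i =>
    ArithmeticFunction.isMultiplicative_sigma.map_mul_of_coprime (hcop i)
  have e1 : ℓ ^ k * r * ℓ = ℓ ^ (k + 1) * r := by ring
  have hpp : ∀ i : ℕ, σ 1 (ℓ ^ i) = ∑ j ∈ Finset.range (i + 1), ℓ ^ j := fun i =>
    ArithmeticFunction.sigma_one_apply_prime_pow hℓ
  rw [e1, hmul, hmul]
  rcases k with _ | j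
  · rw [if_neg (by simpa using hr)]
    rw [hpp, hpp]
    simp [Finset.sum_range_succ]
  · have hd : ℓ ∣ ℓ ^ (j + 1) * r := Dvd.dvd.mul_right (dvd_pow_self ℓ (Nat.succ_ne_zero j)) r
    have e2 : ℓ ^ (j + 1) * r / ℓ = ℓ ^ j * r := by
      rw [pow_succ', mul_assoc, Nat.mul_div_cancel_left _ hℓ.pos]
    rw [if_pos hd, e2, hmul, hpp, hpp, hpp]
    have := geom_rec ℓ j
    linear_combination (σ 1 r) * this

/-- the weight two Hecke operator on power series -/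
def hk (ℓ : ℕ) (P : PowerSeries ℂ) : PowerSeries ℂ := uP ℓ P + (ℓ : ℂ) • expP ℓ P

lemma coeff_hk (ℓ : ℕ) (P : PowerSeries ℂ) (n : ℕ) :
    (hk ℓ P).coeff n = P.coeff (n * ℓ) + if ℓ ∣ n then (ℓ : ℂ) * P.coeff (n / ℓ) else 0 := by
  rw [hk, map_add, PowerSeries.coeff_smul, coeff_uP, coeff_expP]
  split_ifs <;> simp

lemma uP_smul (ℓ : ℕ) (c : ℂ) (P : PowerSeries ℂ) : uP ℓ (c • P) = c • uP ℓ P := by
  ext n; simp [coeff_uP]

lemma uP_sub (ℓ : ℕ) (P Q : PowerSeries ℂ) : uP ℓ (P - Q) = uP ℓ P - uP ℓ Q := by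
  ext n; simp [coeff_uP]

lemma hk_smul (ℓ : ℕ) (c : ℂ) (P : PowerSeries ℂ) : hk ℓ (c • P) = c • hk ℓ P := by
  rw [hk, hk, uP_smul, expP_smul, smul_add, smul_comm]

lemma hk_sub (ℓ : ℕ) (P Q : PowerSeries ℂ) : hk ℓ (P - Q) = hk ℓ P - hk ℓ Q := by
  rw [hk, hk, hk, uP_sub, expP_sub, smul_sub]
  abel

lemma hk_e2 {ℓ : ℕ} (hℓ : ℓ.Prime) : hk ℓ e2 = ((1 + ℓ : ℕ) : ℂ) • e2 := by
  ext n
  rw [coeff_hk, PowerSeries.coeff_smul, coeff_e2, coeff_e2, coeff_e2, smul_eq_mul]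
  rcases Nat.eq_zero_or_pos n with rfl | hn
  · simp
  · rw [if_neg hn.ne', if_neg (mul_ne_zero hn.ne' hℓ.ne_zero)]
    have h := congrArg (fun z : ℕ => (z : ℂ)) (sigma_one_hecke hℓ n)
    by_cases hd : ℓ ∣ n
    · rw [if_pos hd] at h ⊢
      rw [if_neg (Nat.div_pos (Nat.le_of_dvd hn hd) hℓ.pos).ne']
      push_cast at h ⊢
      linear_combination (-24 : ℂ) * h
    · rw [if_neg hd] at h ⊢
      push_cast at h ⊢
      linear_combination (-24 : ℂ) * h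

lemma uP_expP_self {p : ℕ} (hp : 0 < p) (P : PowerSeries ℂ) : uP p (expP p P) = P := by
  ext n; rw [coeff_uP, coeff_expP_mul hp]

lemma expP_comm {p ℓ : ℕ} (P : PowerSeries ℂ) :
    expP ℓ (expP p P) = expP p (expP ℓ P) := by
  have key : ∀ a b n : ℕ, (expP a (expP b P)).coeff n = if a * b ∣ n then P.coeff (n / (a * b)) else 0 := by
    intro a b n
    rw [coeff_expP, coeff_expP]
    by_cases h1 : a ∣ n
    · obtain ⟨m, rfl⟩ := h1
      rcases Nat.eq_zero_or_pos a with rfl | ha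
      · simp
      · rw [if_pos (Dvd.intro _ rfl), Nat.mul_div_cancel_left _ ha, Nat.mul_div_mul_left _ _ ha]
        by_cases h2 : b ∣ m
        · rw [if_pos h2, if_pos (Nat.mul_dvd_mul_left a h2)]
        · rw [if_neg h2, if_neg (fun h => h2 (Nat.dvd_of_mul_dvd_mul_left ha h))]
    · rw [if_neg h1, if_neg (fun h => h1 (dvd_of_mul_right_dvd h))]
  ext n
  rw [key, key, mul_comm]

lemma uP_expP_comm {p ℓ : ℕ} (hp : p.Prime) (hℓ : ℓ.Prime) (hne : ℓ ≠ p) (P : PowerSeries ℂ) :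
    uP ℓ (expP p P) = expP p (uP ℓ P) := by
  ext n
  rw [coeff_uP, coeff_expP, coeff_expP, coeff_uP]
  by_cases h : p ∣ n
  · obtain ⟨m, rfl⟩ := h
    rw [if_pos (Dvd.intro _ rfl), if_pos ⟨m * ℓ, by ring⟩, Nat.mul_div_cancel_left _ hp.pos,
      show p * m * ℓ = p * (m * ℓ) by ring, Nat.mul_div_cancel_left _ hp.pos]
  · rw [if_neg h, if_neg]
    intro h'
    rcases hp.dvd_mul.1 h' with h' | h'
    · exact h h'
    · exact hne ((Nat.prime_dvd_prime_iff_eq hp hℓ).1 h').symm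

lemma hk_expP_comm {p ℓ : ℕ} (hp : p.Prime) (hℓ : ℓ.Prime) (hne : ℓ ≠ p) (P : PowerSeries ℂ) :
    hk ℓ (expP p P) = expP p (hk ℓ P) := by
  rw [hk, hk, uP_expP_comm hp hℓ hne, expP_comm, expP_add, expP_smul]

/-- the `q`-expansion of the weight two Eisenstein series of level `p` -/
def eisS (p : ℕ) : PowerSeries ℂ := (-(1 / 24) : ℂ) • (e2 - (p : ℂ) • expP p e2)

lemma hk_eisS {p ℓ : ℕ} (hp : p.Prime) (hℓ : ℓ.Prime) (hne : ℓ ≠ p) :
    hk ℓ (eisS p) = ((1 + ℓ : ℕ) : ℂ) • eisS p := by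
  rw [eisS, hk_smul, hk_sub, hk_smul, hk_expP_comm hp hℓ hne, hk_e2 hℓ, expP_smul,
    smul_comm (p : ℂ), ← smul_sub, smul_comm]

lemma uP_eisS {p : ℕ} (hp : p.Prime) : uP p (eisS p) = eisS p := by
  have h := hk_e2 hp
  rw [hk] at h
  rw [eisS, uP_smul, uP_sub, uP_smul, uP_expP_self hp.pos, eq_sub_of_add_eq h]
  congr 1
  push_cast
  rw [add_smul, one_smul]
  abel

lemma coeff_zero_eisS (p : ℕ) : (eisS p).coeff 0 = ((p : ℂ) - 1) / 24 := by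
  rw [eisS, PowerSeries.coeff_smul, map_sub, PowerSeries.coeff_smul, coeff_expP,
    if_pos (dvd_zero _), Nat.zero_div, coeff_e2, if_pos rfl, smul_eq_mul, smul_eq_mul]
  ring

lemma coeff_one_eisS {p : ℕ} (hp : p.Prime) : (eisS p).coeff 1 = 1 := by
  rw [eisS, PowerSeries.coeff_smul, map_sub, PowerSeries.coeff_smul, coeff_expP,
    if_neg (fun h => hp.one_lt.ne' (Nat.dvd_one.1 h)), coeff_e2, if_neg one_ne_zero]
  simp

end

end Fermat.Agent.Eis
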