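import Fermat.Agent.Eis.Cong
import Fermat.Agent.JFun.QExp

set_option autoImplicit false

open UpperHalfPlane ModularForm Complex Filter Topology Matrix.SpecialLinearGroup
open scoped MatrixGroups Manifold Real ArithmeticFunction.sigma
open Fermat.Agent.MFLib

namespace Fermat.Agent.Eis

noncomputable section

local notation "Δ" => ModularForm.discriminant

variable {k : ℤ} {f g : ℍ → ℂ}

/-- divisor sum series -/
def sg (i : ℕ) : PowerSeries ℂ := PowerSeries.mk fun n => ((σ i n : ℕ) : ℂ)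

@[simp] lemma coeff_sg (i n : ℕ) : (sg i).coeff n = ((σ i n : ℕ) : ℂ) := by simp [sg]

@[simp] lemma constantCoeff_sg (i : ℕ) : PowerSeries.constantCoeff (sg i) = 0 := by
  rw [← PowerSeries.coeff_zero_eq_constantCoeff_apply, coeff_sg]; simp

lemma qe_E4 : qe E₄ = 1 + (240 : ℂ) • sg 3 := by
  ext m
  rw [qe, EisensteinSeries.E_qExpansion_coeff _ ⟨2, rfl⟩, map_add, PowerSeries.coeff_smul, coeff_sg,
    PowerSeries.coeff_one]
  split_ifs with h
  · subst h; simp
  · rw [show bernoulli 4 = -1 / 30 by decide +kernel]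
    simp
    norm_num

lemma qe_E6 : qe E₆ = 1 - (504 : ℂ) • sg 5 := by
  ext m
  rw [qe, EisensteinSeries.E_qExpansion_coeff _ ⟨3, rfl⟩, map_sub, PowerSeries.coeff_smul, coeff_sg,
    PowerSeries.coeff_one]
  split_ifs with h
  · subst h; simp
  · rw [show bernoulli 6 = 1 / 42 by decide +kernel]
    simp
    norm_num

lemma isInt_sg (i : ℕ) : IsInt (sg i) := fun n => ⟨σ i n, by simp⟩

/-- `a₄` of the Tate curve -/
def ta4 : PowerSeries ℂ := (-5 : ℂ) • sg 3

/-- `a₆` of the Tate curve -/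
def ta6 : PowerSeries ℂ := (-(1 / 12) : ℂ) • ((5 : ℂ) • sg 3 + (7 : ℂ) • sg 5)

lemma isInt_ta4 : IsInt ta4 := by
  have := (isInt_sg 3).smul (-5)
  simpa [ta4] using this

lemma dvd_sigma (n : ℕ) : 12 ∣ 5 * σ 3 n + 7 * σ 5 n := by
  rw [ArithmeticFunction.sigma_apply, ArithmeticFunction.sigma_apply, Finset.mul_sum,
    Finset.mul_sum, ← Finset.sum_add_distrib]
  apply Finset.dvd_sum
  intro d _
  have h : ∀ x : ZMod 12, 5 * x ^ 3 + 7 * x ^ 5 = 0 := by decide
  have h1 := h (d : ZMod 12)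
  rw [← ZMod.natCast_eq_zero_iff]
  push_cast
  exact h1

lemma isInt_ta6 : IsInt ta6 := by
  intro n
  obtain ⟨m, hm⟩ := dvd_sigma n
  refine ⟨-m, ?_⟩
  rw [ta6, PowerSeries.coeff_smul, map_add, PowerSeries.coeff_smul, PowerSeries.coeff_smul,
    coeff_sg, coeff_sg]
  have h1 := congrArg (fun z : ℕ => (z : ℂ)) hm
  push_cast at h1
  simp only [smul_eq_mul]
  push_cast
  linear_combination (-(1 / 12) : ℂ) * h1

lemma qe_E4_eq : qe E₄ = 1 - (48 : ℂ) • ta4 := by
  rw [qe_E4, ta4, smul_smul, sub_eq_add_neg, ← _root_.neg_smul]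
  norm_num

lemma qe_E6_eq : qe E₆ = 1 - (72 : ℂ) • ta4 + (864 : ℂ) • ta6 := by
  rw [qe_E6, ta4, ta6]
  ext n
  simp only [map_sub, map_add, PowerSeries.coeff_smul, smul_eq_mul]
  ring

/-- the discriminant-like series `a₆ - a₄²` -/
def tD : PowerSeries ℂ := ta6 - ta4 ^ 2

lemma isInt_tD : IsInt tD := isInt_ta6.sub (isInt_ta4.pow 2)

lemma coeff_zero_ta4 : ta4.coeff 0 = 0 := by simp [ta4]

lemma coeff_zero_ta6 : ta6.coeff 0 = 0 := by simp [ta6]

lemma coeff_zero_tD : tD.coeff 0 = 0 := by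
  rw [tD, map_sub, coeff_zero_ta6, PowerSeries.coeff_zero_eq_constantCoeff, map_pow,
    ← PowerSeries.coeff_zero_eq_constantCoeff, coeff_zero_ta4]
  simp

lemma coeff_one_tD : tD.coeff 1 = -1 := by
  have h4 : (ta4 ^ 2).coeff 1 = 0 := by
    rw [pow_two, PowerSeries.coeff_mul]
    have : Finset.HasAntidiagonal.antidiagonal 1 = {(0, 1), (1, 0)} := rfl
    rw [this, Finset.sum_pair (by decide)]
    simp [coeff_zero_ta4]
  rw [tD, map_sub, h4, ta6, PowerSeries.coeff_smul, map_add, PowerSeries.coeff_smul,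
    PowerSeries.coeff_smul, coeff_sg, coeff_sg]
  simp
  norm_num

/-- powers of `tD` -/
lemma coeff_tD_pow_of_lt (m n : ℕ) (h : n < m) : (tD ^ m).coeff n = 0 := by
  have h1 : (PowerSeries.X : PowerSeries ℂ) ∣ tD := by
    rw [PowerSeries.X_dvd_iff, ← PowerSeries.coeff_zero_eq_constantCoeff_apply, coeff_zero_tD]
  have h2 : (PowerSeries.X : PowerSeries ℂ) ^ m ∣ tD ^ m := pow_dvd_pow_of_dvd h1 m
  exact (PowerSeries.X_pow_dvd_iff.1 h2) n h

lemma coeff_tD_pow_self (m : ℕ) : (tD ^ m).coeff m = (-1) ^ m := by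
  have h1 : (PowerSeries.X : PowerSeries ℂ) ∣ tD := by
    rw [PowerSeries.X_dvd_iff, ← PowerSeries.coeff_zero_eq_constantCoeff_apply, coeff_zero_tD]
  obtain ⟨Q, hQ⟩ := h1
  have h2 : PowerSeries.constantCoeff Q = -1 := by
    have := coeff_one_tD
    rw [hQ, PowerSeries.coeff_succ_X_mul] at this
    rw [← PowerSeries.coeff_zero_eq_constantCoeff_apply]
    exact this
  rw [hQ, mul_pow]
  have h3 := PowerSeries.coeff_X_pow_mul (Q ^ m) m 0
  rw [zero_add] at h3
  rw [h3, PowerSeries.coeff_zero_eq_constantCoeff_apply, map_pow, h2]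

lemma isInt_qe_E4 : IsInt (qe E₄) := by
  rw [qe_E4]
  have := IsInt.one.add ((isInt_sg 3).smul 240)
  simpa using this

lemma isInt_qe_E6 : IsInt (qe E₆) := by
  rw [qe_E6]
  have := IsInt.one.sub ((isInt_sg 5).smul 504)
  simpa using this

lemma coeff_zero_qe_E4 : (qe E₄).coeff 0 = 1 := by rw [qe_E4]; simp

lemma coeff_zero_qe_E6 : (qe E₆).coeff 0 = 1 := by rw [qe_E6]; simp

/-- a level one form with constant term one and integral coefficients -/
lemma exists_unit_form (n : ℕ) (hn : 4 ≤ n) (hev : Even n) :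
    ∃ e : ℍ → ℂ, IsMF ⊤ n e ∧ IsInt (qe e) ∧ (qe e).coeff 0 = 1 := by
  have h4 : IsMF ⊤ 4 (E₄ : ℍ → ℂ) := IsMF.of_SL E₄
  have h6 : IsMF ⊤ 6 (E₆ : ℍ → ℂ) := IsMF.of_SL E₆
  obtain ⟨m, hm⟩ := hev
  have hc : ∀ (a b : ℕ), (qe (E₄ : ℍ → ℂ) ^ a * qe (E₆ : ℍ → ℂ) ^ b).coeff 0 = 1 := by
    intro a b
    have e4 := coeff_zero_qe_E4
    have e6 := coeff_zero_qe_E6
    rw [PowerSeries.coeff_zero_eq_constantCoeff_apply] at e4 e6 ⊢
    rw [map_mul, map_pow, map_pow, e4, e6, one_pow, one_pow, one_mul]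
  rcases Nat.even_or_odd m with ⟨a, ha⟩ | ⟨a, ha⟩
  · refine ⟨(E₄ : ℍ → ℂ) ^ a * (E₆ : ℍ → ℂ) ^ 0, ?_, ?_, ?_⟩
    · exact ((h4.pow a).mul (h6.pow 0)).congr_weight (by rw [hm, ha]; push_cast; ring)
    · rw [(qg_E4.pow a).qe_mul (qg_E6.pow 0), qg_E4.qe_pow, qg_E6.qe_pow]
      exact (isInt_qe_E4.pow a).mul (isInt_qe_E6.pow 0)
    · rw [(qg_E4.pow a).qe_mul (qg_E6.pow 0), qg_E4.qe_pow, qg_E6.qe_pow]
      exact hc _ _
  · have ha1 : 1 ≤ a := by omega
    obtain ⟨b, rfl⟩ := Nat.exists_eq_add_of_le ha1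
    refine ⟨(E₄ : ℍ → ℂ) ^ b * (E₆ : ℍ → ℂ) ^ 1, ?_, ?_, ?_⟩
    · exact ((h4.pow b).mul (h6.pow 1)).congr_weight (by rw [hm, ha]; push_cast; ring)
    · rw [(qg_E4.pow b).qe_mul (qg_E6.pow 1), qg_E4.qe_pow, qg_E6.qe_pow]
      exact (isInt_qe_E4.pow b).mul (isInt_qe_E6.pow 1)
    · rw [(qg_E4.pow b).qe_mul (qg_E6.pow 1), qg_E4.qe_pow, qg_E6.qe_pow]
      exact hc _ _

lemma coeff_of_disc_mul (Q : PowerSeries ℂ) (n : ℕ) :
    Q.coeff n = (ModularCurve.dedekindEtaUnitInv.map (Int.castRingHom ℂ) *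
      (qe Δ * Q)).coeff (n + 1) := by
  have h2 : ModularCurve.dedekindEtaUnitInv.map (Int.castRingHom ℂ) * (qe Δ * Q) =
      PowerSeries.X * Q := by
    have := congrArg (PowerSeries.map (Int.castRingHom ℂ)) ModularCurve.dedekindEtaUnit_mul_inv
    rw [map_mul, map_one] at this
    rw [qe, JFun.qExpansion_discriminant]
    linear_combination (PowerSeries.X * Q) * this
  rw [h2, PowerSeries.coeff_succ_X_mul]

/-- The Sturm bound modulo the maximal ideal of a valuation ring, in level one. -/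
theorem sturm_mod (R : ValuationSubring ℂ) : ∀ (n : ℕ) (k : ℤ), k.toNat = n → ∀ f : ℍ → ℂ,
    IsMF ⊤ k f → (∀ m : ℕ, 12 * (m : ℤ) ≤ k → R.valuation ((qe f).coeff m) < 1) → PM R (qe f) := by
  intro n
  induction n using Nat.strong_induction_on with
  | _ n ih =>
  intro k hk f hf h
  have hzero : f = 0 → PM R (qe f) := by
    rintro rfl m
    rw [qe, qExpansion_zero]
    simp
  rcases lt_or_ge k 0 with hneg | hnn
  · exact hzero (ModularFormClass.levelOne_neg_weight_eq_zero hneg hf.toSL)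
  obtain ⟨m, rfl⟩ := Int.eq_ofNat_of_zero_le hnn
  rcases Nat.even_or_odd m with hev | hodd
  swap
  · have h1 : hf.toSL = 0 := ModularForm.levelOne_odd_weight_eq_zero (by exact_mod_cast hodd) _
    have : f = 0 := by
      have := congrArg (fun F : ModularForm 𝒮ℒ (m : ℤ) => (F : ℍ → ℂ)) h1
      simpa using this
    exact hzero this
  rcases Nat.lt_or_ge m 4 with hlt | hge
  · interval_cases m
    · obtain ⟨c, hc'⟩ := ModularFormClass.levelOne_weight_zero_const (hf.toSL (k := 0))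
      rw [IsMF.coe_toSL] at hc'
      have h1 : (Function.const ℍ c) = c • (1 : ℍ → ℂ) := by
        ext z; simp
      have h2 : qe f = c • (1 : PowerSeries ℂ) := by
        rw [hc', h1, QG.one.qe_smul, qe, qExpansion_one]
      intro m
      rcases Nat.eq_zero_or_pos m with rfl | hm
      · exact h 0 (by simp)
      · rw [h2, PowerSeries.coeff_smul, PowerSeries.coeff_one, if_neg hm.ne', smul_zero, map_zero]
        exact zero_lt_one
    · exact absurd hev (by decide)
    · exact hzero (levelOne_weight_two_eq_zero hf)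
    · exact absurd hev (by decide)
  · obtain ⟨e, he, heI, he0⟩ := exists_unit_form m hge hev
    set F : ModularForm 𝒮ℒ (m : ℤ) := hf.toSL with hF
    set e' : ModularForm 𝒮ℒ (m : ℤ) := he.toSL with he'
    set c : ℂ := (qExpansion 1 F).coeff 0 with hcdef
    have hcusp := ModularForm.sub_smul_isCuspForm F e' he0
    rw [ModularForm.isCuspForm_iff_coeffZero_eq_zero] at hcusp
    set G := ModularForm.toCuspForm _ hcusp with hG
    set g : ModularForm 𝒮ℒ ((m : ℤ) - 12) := CuspForm.discriminantEquiv G with hg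
    have h1 : f = c • e + Δ * ⇑g := by
      have h2 := ModularForm.discriminant_mul_discriminantEquiv G
      rw [← hg] at h2
      rw [h2]
      ext z
      simp [hG, hF, c, he']
    have hgMF : IsMF ⊤ ((m : ℤ) - 12) g := IsMF.of_SL g
    have hqe : qe f = c • qe e + qe Δ * qe g := by
      conv_lhs => rw [h1]
      rw [(he.qg_top.smul _).qe_add (qg_disc.mul hgMF.qg_top), he.qg_top.qe_smul,
        qg_disc.qe_mul hgMF.qg_top]
    have hc1 : R.valuation c < 1 := h 0 (by simp)
    have hsub : qe Δ * qe g = qe f - c • qe e := by rw [hqe]; ring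
    have hce : PM R (c • qe e) := PM.smul' hc1 (PI.of_isInt heI)
    have hgM : PM R (qe g) := by
      rcases Nat.lt_or_ge m 12 with h12 | h12
      · have : (g : ℍ → ℂ) = 0 :=
          ModularFormClass.levelOne_neg_weight_eq_zero (by omega) g
        rw [this]
        intro m
        rw [qe, qExpansion_zero]
        simp
      · refine ih (m - 12) ?_ ((m : ℤ) - 12) (by omega) g hgMF ?_
        · have : (m : ℤ).toNat = n := hk
          simp only [Int.toNat_natCast] at this
          omega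
        · intro r hr
          rw [coeff_of_disc_mul, hsub, PowerSeries.coeff_mul]
          refine R.valuation.map_sum_lt one_ne_zero fun x hx => ?_
          rw [Finset.HasAntidiagonal.mem_antidiagonal] at hx
          rw [map_mul, mul_comm, map_sub]
          refine mul_lt_one_of_lt_of_le ?_ ?_
          · refine (R.valuation.map_sub _ _).trans_lt (max_lt (h _ ?_) (hce _))
            have : x.2 ≤ r + 1 := by omega
            have h2 : ((x.2 : ℕ) : ℤ) ≤ r + 1 := by exact_mod_cast this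
            linarith
          · rw [PowerSeries.coeff_map]
            exact val_int_le _
    have hdelta : PI R (qe Δ) := by
      rw [qe, JFun.qExpansion_discriminant]
      intro n
      have : (PowerSeries.X * ModularCurve.dedekindEtaUnit.map (Int.castRingHom ℂ) : PowerSeries ℂ) =
        (PowerSeries.X * ModularCurve.dedekindEtaUnit : PowerSeries ℤ).map (Int.castRingHom ℂ) := by
        rw [map_mul, PowerSeries.map_X]
      rw [this, PowerSeries.coeff_map]
      exact val_int_le _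
    rw [hqe]
    exact hce.add (PM.mul' hdelta hgM)

end

end Fermat.Agent.Eis
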